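/-
IG/PR/Theta20 (helper20): the derivation `theta = q d/dq` on Laurent series over a commutative ring,
its Leibniz rule, compatibility with `qExpand` (theta ∘ V_N = N • V_N ∘ theta) and with `coeffMap`.
-/
import Mathlib
import Fermat.Prelude.Def_ModularCurve_X0ModL

set_option autoImplicit false

noncomputable section

open HahnSeries ModularCurve

namespace Fermat.Agent.IG.PR.Theta20

variable {R : Type*} [CommRing R]

/-- `theta f = q * df/dq`: multiplies the coefficient at `q^n` by `n`. -/
def thetaFun (f : LaurentSeries R) : LaurentSeries R where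
  coeff n := (n : R) * f.coeff n
  isPWO_support' := f.isPWO_support.mono (fun n hn => by
    simp only [Function.mem_support, ne_eq] at hn ⊢
    intro h
    exact hn (by rw [h, mul_zero]))

@[simp]
theorem thetaFun_coeff (f : LaurentSeries R) (n : ℤ) :
    (thetaFun f).coeff n = (n : R) * f.coeff n := rfl

theorem support_thetaFun_subset (f : LaurentSeries R) : (thetaFun f).support ⊆ f.support := by
  intro n hn
  simp only [HahnSeries.mem_support, thetaFun_coeff, ne_eq] at hn ⊢
  intro h
  exact hn (by rw [h, mul_zero])

/-- `theta` as an additive map. -/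
def theta : LaurentSeries R →+ LaurentSeries R where
  toFun := thetaFun
  map_zero' := by ext n; simp
  map_add' f g := by ext n; simp [mul_add]

@[simp]
theorem theta_coeff (f : LaurentSeries R) (n : ℤ) :
    (theta f).coeff n = (n : R) * f.coeff n := rfl

theorem theta_single (n : ℤ) (r : R) :
    theta (HahnSeries.single n r) = HahnSeries.single n ((n : R) * r) := by
  ext m
  rw [theta_coeff]
  rcases eq_or_ne m n with rfl | h
  · rw [HahnSeries.coeff_single_same, HahnSeries.coeff_single_same]
  · rw [HahnSeries.coeff_single_of_ne h, HahnSeries.coeff_single_of_ne h, mul_zero]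

theorem theta_C (r : R) : theta (HahnSeries.C r : LaurentSeries R) = 0 := by
  show theta (HahnSeries.single 0 r) = 0
  rw [theta_single]
  simp

theorem theta_one : theta (1 : LaurentSeries R) = 0 := by
  have := theta_C (1 : R)
  simpa using this

/-- Leibniz rule. -/
theorem theta_mul (f g : LaurentSeries R) : theta (f * g) = theta f * g + f * theta g := by
  ext n
  rw [theta_coeff, HahnSeries.coeff_add, HahnSeries.coeff_mul,
    HahnSeries.coeff_mul_left' (x := theta f) (y := g) (s := f.support) f.isPWO_support
      (support_thetaFun_subset f),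
    HahnSeries.coeff_mul_right' (x := f) (y := theta g) (s := g.support) g.isPWO_support
      (support_thetaFun_subset g),
    Finset.mul_sum, ← Finset.sum_add_distrib]
  refine Finset.sum_congr rfl fun ij hij => ?_
  have h : ij.1 + ij.2 = n := (Finset.mem_addAntidiagonal.mp hij).2.2
  rw [theta_coeff, theta_coeff, ← h]
  push_cast
  ring

theorem theta_pow (f : LaurentSeries R) (n : ℕ) :
    theta (f ^ (n + 1)) = ((n + 1 : ℕ) : LaurentSeries R) * f ^ n * theta f := by
  induction n with
  | zero => simp
  | succ n ih =>
    rw [pow_succ, theta_mul, ih]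
    push_cast
    ring

/-- `theta` commutes with coefficient maps. -/
theorem coeffMap_theta {S : Type*} [CommRing S] (φ : R →+* S) (f : LaurentSeries R) :
    coeffMap φ (theta f) = theta (coeffMap φ f) := by
  ext n
  simp [map_mul]

/-- `theta (V_N f) = N * V_N (theta f)`. -/
theorem theta_qExpand (N : ℕ) [NeZero N] (f : LaurentSeries R) :
    theta (qExpand R N f) = (N : LaurentSeries R) * qExpand R N (theta f) := by
  have hN : (N : LaurentSeries R) = HahnSeries.C (N : R) := by
    simp
  ext n
  rw [hN, HahnSeries.C_mul_eq_smul, HahnSeries.coeff_smul, smul_eq_mul, theta_coeff]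
  by_cases hn : (N : ℤ) ∣ n
  · obtain ⟨m, rfl⟩ := hn
    rw [qExpand_coeff_mul, qExpand_coeff_mul, theta_coeff]
    push_cast
    ring
  · rw [qExpand_coeff_of_not_dvd N f hn, qExpand_coeff_of_not_dvd N (theta f) hn, mul_zero,
      mul_zero]

end Fermat.Agent.IG.PR.Theta20
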