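/-
IG/PR/Interface20 (helper20, chapter lead IG/PR): INTERFACE of chapter IG/PR (Theorem P, prime level).

Objects (formal q-series over any commutative ring `R`, all defined from the prelude's
`eisenstein4`, `dedekindEtaUnit`, `dedekindEtaUnitInv`, `jqModC`):
  `E4q R`, `deltaq R = q * eta^24`, `deltaqInv R`, `uq R p = Delta(q^p)/Delta(q)`.

INPUTS from chapter IG/AN, stated as identities in `LaurentSeries ℤ` (Prop-defs):
  `P0 p`  modular equation of prime level p with the symmetric relation,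
  `P1`    (theta j)^2 = E4 * j * (j - 1728),
  `P2 p`  u = Delta(q^p)/Delta(q) satisfies  p^m * u^n + (lower terms with coefficients in ℤ[j]) = 0.

OUTPUTS of chapter IG/PR for chapter IG/VAL (Prop-defs, to be proved in IG/PR):
  `TheoremP p`         : for every field k with (p : k) ≠ 0, j(q^p) ∉ k(j(q)) inside k((q)),
  `CofactorIrred p`    : irreducibility criterion over k((q)) via the degree-p extension k((q))/k((q^p)),
  `PrimeLevelDegree p` : for every field k with (p : k) ≠ 0, minpoly_{k(j(q))} j(q^p) has degree p + 1.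
-/
import Mathlib
import Fermat.Prelude.Def_ModularCurve_X0ModL
import Fermat.Agent.IG.PR.Theta20

set_option autoImplicit false

noncomputable section

open HahnSeries ModularCurve Polynomial

namespace Fermat.Agent.IG.PR.Interface20

open Fermat.Agent.IG.PR.Theta20

section Objects

variable (R : Type*) [CommRing R]

/-- The formal Eisenstein series `E4 = 1 + 240 ∑ σ₃(n) q^n` in `R((q))`. -/
def E4q : LaurentSeries R :=
  HahnSeries.ofPowerSeries ℤ R (eisenstein4.map (Int.castRingHom R))

/-- The formal discriminant `Delta = q ∏ (1 - q^n)^24` in `R((q))`. -/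
def deltaq : LaurentSeries R :=
  HahnSeries.single (1 : ℤ) 1 *
    HahnSeries.ofPowerSeries ℤ R (dedekindEtaUnit.map (Int.castRingHom R))

/-- The inverse of `deltaq`. -/
def deltaqInv : LaurentSeries R :=
  HahnSeries.single (-1 : ℤ) 1 *
    HahnSeries.ofPowerSeries ℤ R (dedekindEtaUnitInv.map (Int.castRingHom R))

/-- The modular unit `u = Delta(q^p) / Delta(q) = q^(p-1) * (unit of R[[q]])`. -/
def uq (p : ℕ) [NeZero p] : LaurentSeries R :=
  qExpand R p (deltaq R) * deltaqInv R

/-- Evaluation `ℤ[Y] → R((q))`, `Y ↦ y`. -/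
def evalAt (y : LaurentSeries R) : Polynomial ℤ →+* LaurentSeries R :=
  Polynomial.eval₂RingHom (Int.castRingHom (LaurentSeries R)) y

end Objects

section Inputs

/-- (P0) at prime level `p`: a monic `Φ ∈ ℤ[Y][X]` of `X`-degree `p + 1` with
`Φ(X := j(q^p), Y := j(q)) = 0` and `Φ(X := j(q), Y := j(q^p)) = 0` in `ℤ((q))`. -/
def P0 (p : ℕ) [NeZero p] : Prop :=
  ∃ Φ : Polynomial (Polynomial ℤ), Φ.Monic ∧ Φ.natDegree = p + 1 ∧
    Φ.eval₂ (evalAt ℤ (jqModC ℤ)) (qExpand ℤ p (jqModC ℤ)) = 0 ∧
    Φ.eval₂ (evalAt ℤ (qExpand ℤ p (jqModC ℤ))) (jqModC ℤ) = 0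

/-- (P1): `(theta j)^2 = E4 * j * (j - 1728)` in `ℤ((q))`. -/
def P1 : Prop :=
  (theta (jqModC ℤ)) ^ 2 = E4q ℤ * jqModC ℤ * (jqModC ℤ - 1728)

/-- (P2) at level `p`: `u = Delta(q^p)/Delta(q)` is a root of a polynomial in `ℤ[Y][X]`
(`Y := j(q)`) whose leading coefficient is the constant `p^m`. -/
def P2 (p : ℕ) [NeZero p] : Prop :=
  ∃ (m : ℕ) (P : Polynomial (Polynomial ℤ)),
    P.leadingCoeff = Polynomial.C ((p : ℤ) ^ m) ∧
    P.eval₂ (evalAt ℤ (jqModC ℤ)) (uq ℤ p) = 0

end Inputs

section Outputs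

/-- Theorem P (blueprint §2): `j(q^p) ∉ k(j(q))` inside `k((q))` when `p` is invertible in `k`. -/
def TheoremP (p : ℕ) [NeZero p] : Prop :=
  ∀ (k : Type) [Field k], (p : k) ≠ 0 →
    qExpand k p (jqModC k) ∉ IntermediateField.adjoin k {jqModC k}

/-- Irreducibility criterion: `k((q))` has prime degree `p` over `k((q^p))`, so a monic polynomial
`G` of degree `p` over `k((q))` whose image under `q ↦ q^p` has a root outside `k((q^p))` is irreducible. -/
def CofactorIrred (p : ℕ) [NeZero p] : Prop :=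
  ∀ (k : Type) [Field k] (G : Polynomial (LaurentSeries k)) (f : LaurentSeries k),
    G.Monic → G.natDegree = p → f ∉ Set.range (qExpand k p) →
    (G.map (qExpand k p)).eval f = 0 → Irreducible G

/-- Prime level degree: `[k(j(q), j(q^p)) : k(j(q))] = p + 1`. -/
def PrimeLevelDegree (p : ℕ) [NeZero p] : Prop :=
  ∀ (k : Type) [Field k], (p : k) ≠ 0 →
    (minpoly (IntermediateField.adjoin k {jqModC k}) (qExpand k p (jqModC k))).natDegree = p + 1

end Outputs

end Fermat.Agent.IG.PR.Interface20
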