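/-
Program G (S28, Igusa) / chapter IG/PR / helper25.

Lemma (C) "ramification degree": inside `K = k((q))`, with `V = qExpand k p : K → K`
(`q ↦ q^p`), an element `y` whose `q`-order is coprime to `p` satisfies no nonzero polynomial
relation of degree `< p` with coefficients in `V(K) = k((q^p))`.
Consequently `p ≤ deg minpoly_F(y)` for every field `F` mapping into `V(K)`.

Pure Hahn-series bookkeeping: the terms `V(c_i) * y^i` have pairwise distinct orders mod `p`.
-/
import Mathlib
import Fermat.Prelude.Def_ModularCurve_X0ModL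

set_option autoImplicit false

noncomputable section

namespace Fermat.Agent.IG.PR.RamDeg25

open HahnSeries Polynomial ModularCurve

section General

variable {Γ R : Type*} [LinearOrder Γ] [Zero Γ] [AddCommMonoid R]

/-- A finite sum of Hahn series whose nonzero terms have pairwise distinct orders and which has
at least one nonzero term is nonzero. -/
theorem sum_ne_zero_of_order_injOn {ι : Type*} [DecidableEq ι] (s : Finset ι)
    (t : ι → HahnSeries Γ R)
    (hinj : ∀ i ∈ s, ∀ j ∈ s, t i ≠ 0 → t j ≠ 0 → (t i).order = (t j).order → i = j)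
    (hne : ∃ i ∈ s, t i ≠ 0) : ∑ i ∈ s, t i ≠ 0 := by
  classical
  have hne' : (s.filter fun i => t i ≠ 0).Nonempty := by
    obtain ⟨i, hi, hti⟩ := hne
    exact ⟨i, Finset.mem_filter.2 ⟨hi, hti⟩⟩
  obtain ⟨i0, hi0, hmin⟩ := Finset.exists_min_image _ (fun i => (t i).order) hne'
  rw [Finset.mem_filter] at hi0
  have hcoeff : (∑ i ∈ s, t i).coeff (t i0).order = (t i0).coeff (t i0).order := by
    rw [HahnSeries.coeff_sum]
    refine Finset.sum_eq_single i0 ?_ ?_
    · intro j hj hji
      by_cases htj : t j = 0
      · rw [htj]; rfl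
      · have hle := hmin j (Finset.mem_filter.2 ⟨hj, htj⟩)
        have hne2 : (t i0).order ≠ (t j).order := fun h =>
          hji ((hinj i0 hi0.1 j hj hi0.2 htj h).symm)
        exact coeff_eq_zero_of_lt_order (lt_of_le_of_ne hle hne2)
    · intro h; exact absurd hi0.1 h
  intro h0
  rw [h0] at hcoeff
  exact hi0.2 (coeff_order_eq_zero.1 hcoeff.symm)

end General

variable {k : Type*} [Field k] (p : ℕ) [NeZero p]

/-- The order of a series in the image of `q ↦ q^p` is divisible by `p`. -/
theorem dvd_order_qExpand (f : LaurentSeries k) : (p : ℤ) ∣ (qExpand k p f).order := by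
  by_cases hf : qExpand k p f = 0
  · rw [hf, order_zero]; exact dvd_zero _
  · by_contra hnd
    exact (coeff_order_eq_zero.not.2 hf) (qExpand_coeff_of_not_dvd p f hnd)

variable {p}

/-- **Lemma (C).**  If the order of `y` is coprime to `p`, then `y` is not a root of any nonzero
polynomial of degree `< p` with coefficients in the image of `V = qExpand k p`. -/
theorem eval_map_qExpand_ne_zero {y : LaurentSeries k} (hy0 : y ≠ 0)
    (hy : IsCoprime y.order (p : ℤ)) (g : (LaurentSeries k)[X]) (hg : g ≠ 0)
    (hdeg : g.natDegree < p) : (g.map (qExpand k p)).eval y ≠ 0 := by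
  classical
  have hinjV := qExpand_injective (R := k) p
  rw [eval_eq_sum_range, natDegree_map_eq_of_injective hinjV]
  refine sum_ne_zero_of_order_injOn _ _ ?_ ?_
  · intro i hi j hj hti htj hord
    rw [Finset.mem_range] at hi hj
    simp only [coeff_map] at hti htj hord
    have hci : qExpand k p (g.coeff i) ≠ 0 := left_ne_zero_of_mul hti
    have hcj : qExpand k p (g.coeff j) ≠ 0 := left_ne_zero_of_mul htj
    rw [order_mul hci (pow_ne_zero _ hy0), order_mul hcj (pow_ne_zero _ hy0), order_pow,
      order_pow] at hord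
    obtain ⟨a, ha⟩ := dvd_order_qExpand p (g.coeff i)
    obtain ⟨b, hb⟩ := dvd_order_qExpand p (g.coeff j)
    rw [ha, hb] at hord
    simp only [nsmul_eq_mul] at hord
    have hdvd : (p : ℤ) ∣ ((i : ℤ) - j) * y.order := ⟨b - a, by linear_combination hord⟩
    have hdvd2 : (p : ℤ) ∣ (i : ℤ) - j := hy.symm.dvd_of_dvd_mul_right hdvd
    have hi' : (i : ℤ) < p := by exact_mod_cast lt_of_lt_of_le hi (by omega)
    have hj' : (j : ℤ) < p := by exact_mod_cast lt_of_lt_of_le hj (by omega)
    have h0 : (i : ℤ) - j = 0 := by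
      apply Int.eq_zero_of_abs_lt_dvd hdvd2
      rw [abs_lt]
      constructor <;> omega
    omega
  · refine ⟨g.natDegree, Finset.self_mem_range_succ _, ?_⟩
    rw [coeff_map]
    refine mul_ne_zero ?_ (pow_ne_zero _ hy0)
    rw [Ne, map_eq_zero_iff _ hinjV]
    exact leadingCoeff_ne_zero.2 hg

/-- Special case: `y` of order `-1`. -/
theorem eval_map_qExpand_ne_zero_of_order {y : LaurentSeries k} (hy : y.order = -1)
    (g : (LaurentSeries k)[X]) (hg : g ≠ 0) (hdeg : g.natDegree < p) :
    (g.map (qExpand k p)).eval y ≠ 0 := by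
  refine eval_map_qExpand_ne_zero ?_ ?_ g hg hdeg
  · rintro rfl
    rw [order_zero] at hy
    omega
  · rw [hy]
    exact (isCoprime_one_left (x := (p : ℤ))).neg_left

section Algebra

variable {F : Type*} [Field F] [Algebra F (LaurentSeries k)]

/-- Lemma (C) for a field `F` mapping into `V(K)`. -/
theorem aeval_ne_zero_of_range {y : LaurentSeries k} (hy0 : y ≠ 0)
    (hy : IsCoprime y.order (p : ℤ))
    (hF : ∀ a : F, algebraMap F (LaurentSeries k) a ∈ Set.range (qExpand k p))
    (g : F[X]) (hg : g ≠ 0) (hdeg : g.natDegree < p) : aeval y g ≠ 0 := by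
  have hlift : g.map (algebraMap F (LaurentSeries k)) ∈ Polynomial.lifts (qExpand k p) := by
    rw [Polynomial.lifts_iff_coeff_lifts]
    intro n
    rw [coeff_map]
    exact hF _
  obtain ⟨g', hg', hdeg'⟩ := Polynomial.exists_natDegree_eq_of_mem_lifts hlift
  have hinj : Function.Injective (algebraMap F (LaurentSeries k)) :=
    (algebraMap F (LaurentSeries k)).injective
  have hg0 : g' ≠ 0 := by
    rintro rfl
    rw [Polynomial.map_zero] at hg'
    exact hg ((Polynomial.map_eq_zero_iff hinj).1 hg'.symm)
  have hd : g'.natDegree < p := by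
    rw [hdeg', natDegree_map_eq_of_injective hinj]
    exact hdeg
  have := eval_map_qExpand_ne_zero hy0 hy g' hg0 hd
  rwa [hg', eval_map_algebraMap] at this

/-- Degree bound for the minimal polynomial over a field mapping into `V(K)`. -/
theorem le_natDegree_minpoly {y : LaurentSeries k} (hy0 : y ≠ 0)
    (hy : IsCoprime y.order (p : ℤ))
    (hF : ∀ a : F, algebraMap F (LaurentSeries k) a ∈ Set.range (qExpand k p))
    (hint : IsIntegral F y) : p ≤ (minpoly F y).natDegree := by
  by_contra hlt
  rw [not_le] at hlt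
  exact aeval_ne_zero_of_range hy0 hy hF _ (minpoly.ne_zero hint) hlt (minpoly.aeval F y)

end Algebra

end Fermat.Agent.IG.PR.RamDeg25
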