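/-
IG/PR/FamilyForm20 (helper20): conversions between `IntermediateField.relfinrank A B` and the
"family form" of degree bounds used by chapter IG/VAL:
* upper bound:  every `A`-linearly independent family of elements of `B` has at most `m` members;
* lower bound:  there are `m` elements of `B`, linearly independent over `A`.
-/
import Mathlib

set_option autoImplicit false

namespace Fermat.Agent.IG.PR.FamilyForm20

open Module

variable {F E : Type*} [Field F] [Field E] [Algebra F E] {A B : IntermediateField F E}

/-- A basis of `B` over `A` (for `A ≤ B`, finite or not the statement is about finite `r`), seen in `E`. -/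
theorem exists_basis_family (h : A ≤ B) :
    ∃ c : Fin (IntermediateField.relfinrank A B) → E, (∀ i, c i ∈ B) ∧ LinearIndependent ↥A c := by
  rw [IntermediateField.relfinrank_eq_finrank_of_le h]
  by_cases hr : finrank ↥A ↥(IntermediateField.extendScalars h) = 0
  · rw [hr]
    exact ⟨fun i => i.elim0, fun i => i.elim0, linearIndependent_empty_type⟩
  · have : Module.Finite ↥A ↥(IntermediateField.extendScalars h) :=
      Module.finite_of_finrank_pos (Nat.pos_of_ne_zero hr)
    have : Module.Free ↥A ↥(IntermediateField.extendScalars h) :=
      Module.Free.of_divisionRing _ _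
    let b := Module.finBasis ↥A ↥(IntermediateField.extendScalars h)
    refine ⟨fun i => ((b i : ↥(IntermediateField.extendScalars h)) : E), fun i => ?_, ?_⟩
    · exact (IntermediateField.mem_extendScalars h).mp (b i).2
    · have hli := b.linearIndependent
      have := hli.map' (IntermediateField.extendScalars h).val.toLinearMap
        (LinearMap.ker_eq_bot.mpr (IntermediateField.extendScalars h).val.injective)
      exact this

/-- Family-form upper bound ⇒ `relfinrank A B ≤ m`. -/
theorem relfinrank_le_of_family_bound (h : A ≤ B) (m : ℕ)
    (hub : ∀ (n : ℕ) (c : Fin n → E), (∀ i, c i ∈ B) → LinearIndependent ↥A c → n ≤ m) :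
    IntermediateField.relfinrank A B ≤ m := by
  obtain ⟨c, hc, hli⟩ := exists_basis_family h
  exact hub _ c hc hli

/-- `m ≤ relfinrank A B` ⇒ family-form lower bound. -/
theorem exists_family_of_le_relfinrank (h : A ≤ B) (m : ℕ)
    (hm : m ≤ IntermediateField.relfinrank A B) :
    ∃ c : Fin m → E, (∀ i, c i ∈ B) ∧ LinearIndependent ↥A c := by
  obtain ⟨c, hc, hli⟩ := exists_basis_family h
  exact ⟨fun i => c (Fin.castLE hm i), fun i => hc _, hli.comp _ (Fin.castLE_injective hm)⟩

/-- Family-form lower bound ⇒ `m ≤ relfinrank A B`, provided `B` is finite over `A`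
(stated with `relfinrank A B ≠ 0`). -/
theorem le_relfinrank_of_family (h : A ≤ B) (m : ℕ) (hfin : IntermediateField.relfinrank A B ≠ 0)
    (c : Fin m → E) (hc : ∀ i, c i ∈ B) (hli : LinearIndependent ↥A c) :
    m ≤ IntermediateField.relfinrank A B := by
  rw [IntermediateField.relfinrank_eq_finrank_of_le h] at hfin ⊢
  have : Module.Finite ↥A ↥(IntermediateField.extendScalars h) :=
    Module.finite_of_finrank_pos (Nat.pos_of_ne_zero hfin)
  let c' : Fin m → ↥(IntermediateField.extendScalars h) := fun i =>
    ⟨c i, (IntermediateField.mem_extendScalars h).mpr (hc i)⟩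
  have hli' : LinearIndependent ↥A c' := by
    refine LinearIndependent.of_comp (IntermediateField.extendScalars h).val.toLinearMap ?_
    exact hli
  have := hli'.fintype_card_le_finrank
  simpa using this

end Fermat.Agent.IG.PR.FamilyForm20
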