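/-
Program G (S28, Igusa) / chapter IG/PR / helper25.

(IRR_p), both sides, in abstract form (no Laurent series, no roots of unity).

* `irreducible_of_roots` : let `j : B → K`, `V : K → K` be field embeddings with `j(B) ⊆ V(K)`,
  and `P ∈ B[X]` monic of degree `p + 1` (`p ≥ 2`) having in `K` a root `x` which satisfies no
  nonzero relation of degree `< p` over `V(K)`, and a root `V y ∉ j(B)`.  Then `P` is irreducible.
* For `k`-algebra endomorphism `V` of `K ⊇ k`, `x ∈ K` and `F ∈ k[Y][X]` monic of `X`-degree `p + 1`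
  with `F(V x ; x) = 0 = F(x ; V x)` and `V x ∉ k(x)`:
  `[k(x, V x) : k(x)] = p + 1 = [k(x, V x) : k(V x)]` (as `IntermediateField.relfinrank`).
-/
import Mathlib

set_option autoImplicit false

noncomputable section

namespace Fermat.Agent.IG.PR.IrredP25

open Polynomial IntermediateField

section Abstract

variable {B K : Type*} [Field B] [Field K]

/-- One half of the factorisation argument. -/
theorem false_of_factor (j : B →+* K) (V : K →+* K) (p : ℕ) (hp : 2 ≤ p)
    (hj : ∀ b : B, j b ∈ Set.range V)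
    (x y : K)
    (hC : ∀ g : K[X], g ≠ 0 → g.natDegree < p → (g.map V).eval x ≠ 0)
    (hny : V y ∉ Set.range j)
    (f g : B[X]) (hf : f.Monic) (hg : g.Monic) (hdeg : f.natDegree + g.natDegree = p + 1)
    (hy : ((f * g).map j).eval (V y) = 0)
    (hfx : (f.map j).eval x = 0) (hg1 : 1 ≤ g.natDegree) : False := by
  -- lift `f.map j` along `V`
  have hlift : f.map j ∈ Polynomial.lifts V := by
    rw [Polynomial.lifts_iff_coeff_lifts]
    intro n
    rw [coeff_map]
    exact hj _
  obtain ⟨f', hf', hdeg', hmon'⟩ :=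
    Polynomial.lifts_and_natDegree_eq_and_monic hlift (hf.map j)
  have hf'deg : f'.natDegree = f.natDegree := by
    rw [hdeg', hf.natDegree_map]
  -- degree of f is at least p
  have hpf : p ≤ f.natDegree := by
    by_contra hlt
    rw [not_le] at hlt
    exact hC f' hmon'.ne_zero (by rw [hf'deg]; exact hlt) (by rw [hf']; exact hfx)
  have hg1' : g.natDegree = 1 := by omega
  have hfp : f.natDegree = p := by omega
  -- g = X + C b
  have hgX : g = X + C (g.coeff 0) := hg.eq_X_add_C hg1'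
  -- evaluate at V y
  rw [Polynomial.map_mul, eval_mul] at hy
  rcases mul_eq_zero.1 hy with h1 | h2
  · -- f'(y) = 0
    rw [← hf', eval_map, Polynomial.eval₂_at_apply, map_eq_zero] at h1
    have hroot : (X - C y) * (f' /ₘ (X - C y)) = f' := mul_divByMonic_eq_iff_isRoot.2 h1
    set h := f' /ₘ (X - C y) with hh
    have hh0 : h ≠ 0 := by
      rintro h0
      rw [h0, mul_zero] at hroot
      exact hmon'.ne_zero hroot.symm
    have hhdeg : h.natDegree < p := by
      rw [hh, natDegree_divByMonic _ (monic_X_sub_C y), natDegree_X_sub_C, hf'deg, hfp]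
      omega
    have hxy : x - V y ≠ 0 := by
      have := hC (X - C y) (X_sub_C_ne_zero y) (by rw [natDegree_X_sub_C]; omega)
      simpa using this
    have hfx' : (f'.map V).eval x = 0 := by rw [hf']; exact hfx
    rw [← hroot, Polynomial.map_mul, eval_mul] at hfx'
    rcases mul_eq_zero.1 hfx' with h3 | h3
    · apply hxy
      simpa using h3
    · exact hC h hh0 hhdeg h3
  · -- V y = j (-b)
    apply hny
    refine ⟨-(g.coeff 0), ?_⟩
    rw [hgX] at h2
    simp only [Polynomial.map_add, map_X, map_C, eval_add, eval_X, eval_C] at h2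
    rw [map_neg]
    exact (eq_neg_of_add_eq_zero_left h2).symm

/-- **Abstract irreducibility.**  `P ∈ B[X]` monic of degree `p + 1`, `j(B) ⊆ V(K)`, with a root
`x` of "degree `≥ p` over `V(K)`" and a root `V y ∉ j(B)`: then `P` is irreducible over `B`. -/
theorem irreducible_of_roots (j : B →+* K) (V : K →+* K) (p : ℕ) (hp : 2 ≤ p)
    (hj : ∀ b : B, j b ∈ Set.range V)
    (x y : K)
    (hC : ∀ g : K[X], g ≠ 0 → g.natDegree < p → (g.map V).eval x ≠ 0)
    (hny : V y ∉ Set.range j)
    (P : B[X]) (hP : P.Monic) (hdeg : P.natDegree = p + 1)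
    (hx : (P.map j).eval x = 0) (hy : (P.map j).eval (V y) = 0) : Irreducible P := by
  rw [hP.irreducible_iff_natDegree]
  refine ⟨?_, ?_⟩
  · rintro rfl
    rw [natDegree_one] at hdeg
    omega
  · intro f g hf hg hfg
    by_contra hcon
    rw [not_or] at hcon
    have hf1 : 1 ≤ f.natDegree := Nat.one_le_iff_ne_zero.2 hcon.1
    have hg1 : 1 ≤ g.natDegree := Nat.one_le_iff_ne_zero.2 hcon.2
    have hsum : f.natDegree + g.natDegree = p + 1 := by
      rw [← hf.natDegree_mul hg, hfg, hdeg]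
    rw [← hfg, Polynomial.map_mul, eval_mul] at hx
    rcases mul_eq_zero.1 hx with h1 | h1
    · exact false_of_factor j V p hp hj x y hC hny f g hf hg hsum (by rw [hfg]; exact hy) h1 hg1
    · exact false_of_factor j V p hp hj x y hC hny g f hg hf (by omega)
        (by rw [mul_comm, hfg]; exact hy) h1 hf1

end Abstract

section Relfinrank

variable {k K : Type*} [Field k] [Field K] [Algebra k K]

/-- `[A(y) : A] = deg minpoly_A(y)` in `relfinrank` form. -/
theorem relfinrank_sup_adjoin_simple (A : IntermediateField k K) (y : K) (hy : IsIntegral A y) :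
    relfinrank A (A ⊔ k⟮y⟯) = (minpoly A y).natDegree := by
  rw [relfinrank_eq_finrank_of_le le_sup_left]
  have h : extendScalars (le_sup_left : A ≤ A ⊔ k⟮y⟯) = A⟮y⟯ :=
    restrictScalars_injective k (by
      rw [extendScalars_restrictScalars, restrictScalars_adjoin_eq_sup])
  rw [h, adjoin.finrank hy]

end Relfinrank

section Field

variable {k K : Type*} [Field k] [Field K] [Algebra k K]

/-- The polynomial `F(X ; Y := a)` with coefficients in `k(a)`. -/
def polyAt (F : k[X][X]) (a : K) : (k⟮a⟯)[X] :=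
  F.map (aeval (AdjoinSimple.gen k a)).toRingHom

theorem polyAt_monic {F : k[X][X]} (hF : F.Monic) (a : K) : (polyAt F a).Monic :=
  hF.map _

theorem natDegree_polyAt {F : k[X][X]} (hF : F.Monic) (a : K) :
    (polyAt F a).natDegree = F.natDegree :=
  hF.natDegree_map _

theorem algebraMap_comp_aeval_gen (a : K) :
    (algebraMap k⟮a⟯ K).comp (aeval (AdjoinSimple.gen k a)).toRingHom =
      (aeval a : k[X] →ₐ[k] K).toRingHom := by
  refine Polynomial.ringHom_ext (fun c => ?_) ?_
  · simp only [AlgHom.toRingHom_eq_coe, RingHom.coe_comp, RingHom.coe_coe, Function.comp_apply,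
      aeval_C]
    rfl
  · simp only [AlgHom.toRingHom_eq_coe, RingHom.coe_comp, RingHom.coe_coe, Function.comp_apply,
      aeval_X, AdjoinSimple.algebraMap_gen]

theorem eval_map_polyAt (F : k[X][X]) (a b : K) :
    ((polyAt F a).map (algebraMap k⟮a⟯ K)).eval b = eval₂ (aeval a : k[X] →ₐ[k] K).toRingHom b F := by
  rw [polyAt, Polynomial.map_map, eval_map, algebraMap_comp_aeval_gen]

theorem aeval_polyAt (F : k[X][X]) (a b : K) :
    aeval b (polyAt F a) = eval₂ (aeval a : k[X] →ₐ[k] K).toRingHom b F := by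
  rw [← eval_map_polyAt, eval_map_algebraMap]

variable (V : K →ₐ[k] K)

theorem algHom_comp_aeval (a : K) :
    (V : K →+* K).comp (aeval a : k[X] →ₐ[k] K).toRingHom =
      (aeval (V a) : k[X] →ₐ[k] K).toRingHom := by
  refine Polynomial.ringHom_ext (fun c => ?_) ?_
  · simp only [AlgHom.toRingHom_eq_coe, RingHom.coe_comp, RingHom.coe_coe, Function.comp_apply,
      aeval_C, AlgHom.commutes]
  · simp only [AlgHom.toRingHom_eq_coe, RingHom.coe_comp, RingHom.coe_coe, Function.comp_apply,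
      aeval_X]

/-- Applying `V` to the relation `F(b ; a) = 0` gives `F(V b ; V a) = 0`. -/
theorem eval₂_aeval_algHom (F : k[X][X]) (a b : K)
    (h : eval₂ (aeval a : k[X] →ₐ[k] K).toRingHom b F = 0) :
    eval₂ (aeval (V a) : k[X] →ₐ[k] K).toRingHom (V b) F = 0 := by
  have := Polynomial.hom_eval₂ F (aeval a : k[X] →ₐ[k] K).toRingHom (V : K →+* K) b
  rw [h, map_zero, algHom_comp_aeval] at this
  exact this.symm

theorem adjoin_simple_map (a : K) : (k⟮a⟯).map V = k⟮V a⟯ := by
  rw [adjoin_map, Set.image_singleton]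

variable {V}

/-- Irreducibility of `F(X ; x)` over `k(x)`. -/
theorem irreducible_polyAt_left {p : ℕ} (hp : 2 ≤ p) {x : K} {F : k[X][X]} (hF : F.Monic)
    (hdeg : F.natDegree = p + 1)
    (h1 : eval₂ (aeval x : k[X] →ₐ[k] K).toRingHom (V x) F = 0)
    (h2 : eval₂ (aeval (V x) : k[X] →ₐ[k] K).toRingHom x F = 0)
    (hC : ∀ g : K[X], g ≠ 0 → g.natDegree < p → (g.map (V : K →+* K)).eval x ≠ 0)
    (hP : V x ∉ k⟮x⟯) : Irreducible (polyAt F x) := by
  refine irreducible_of_roots ((V : K →+* K).comp (algebraMap k⟮x⟯ K)) (V : K →+* K) p hp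
    (fun b => ⟨algebraMap k⟮x⟯ K b, rfl⟩) x (V x) hC ?_ (polyAt F x) (polyAt_monic hF x)
    (by rw [natDegree_polyAt hF, hdeg]) ?_ ?_
  · rintro ⟨b, hb⟩
    apply hP
    have : algebraMap k⟮x⟯ K b = V x := V.toRingHom.injective hb
    rw [← this]
    exact b.2
  · rw [← Polynomial.map_map, eval_map, ← eval_map, Polynomial.map_map, polyAt,
      Polynomial.map_map, eval_map, RingHom.comp_assoc, algebraMap_comp_aeval_gen,
      algHom_comp_aeval]
    exact h2
  · rw [← Polynomial.map_map, eval_map, Polynomial.eval₂_at_apply, eval_map_polyAt, h1, map_zero]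

/-- Irreducibility of `F(X ; V x)` over `k(V x)`. -/
theorem irreducible_polyAt_right {p : ℕ} (hp : 2 ≤ p) {x : K} {F : k[X][X]} (hF : F.Monic)
    (hdeg : F.natDegree = p + 1)
    (h1 : eval₂ (aeval x : k[X] →ₐ[k] K).toRingHom (V x) F = 0)
    (h2 : eval₂ (aeval (V x) : k[X] →ₐ[k] K).toRingHom x F = 0)
    (hC : ∀ g : K[X], g ≠ 0 → g.natDegree < p → (g.map (V : K →+* K)).eval x ≠ 0)
    (hP : V x ∉ k⟮x⟯) : Irreducible (polyAt F (V x)) := by
  have hmem : ∀ b : k⟮V x⟯, ∃ a ∈ k⟮x⟯, V a = (b : K) := by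
    intro b
    have hb : (b : K) ∈ (k⟮x⟯).map V := by rw [adjoin_simple_map]; exact b.2
    exact hb
  refine irreducible_of_roots (algebraMap k⟮V x⟯ K) (V : K →+* K) p hp
    (fun b => ?_) x (V x) hC ?_ (polyAt F (V x)) (polyAt_monic hF _)
    (by rw [natDegree_polyAt hF, hdeg]) ?_ ?_
  · obtain ⟨a, -, ha⟩ := hmem b
    exact ⟨a, ha⟩
  · rintro ⟨b, hb⟩
    obtain ⟨a, ha, hab⟩ := hmem b
    apply hP
    have : a = V x := V.toRingHom.injective (by
      show V a = V (V x)
      rw [hab]; exact hb)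
    rw [← this]
    exact ha
  · rw [eval_map_polyAt]; exact h2
  · rw [eval_map_polyAt]
    exact eval₂_aeval_algHom V F x (V x) h1

/-- `[k(x, V x) : k(x)] = p + 1`. -/
theorem relfinrank_left {p : ℕ} (hp : 2 ≤ p) {x : K} {F : k[X][X]} (hF : F.Monic)
    (hdeg : F.natDegree = p + 1)
    (h1 : eval₂ (aeval x : k[X] →ₐ[k] K).toRingHom (V x) F = 0)
    (h2 : eval₂ (aeval (V x) : k[X] →ₐ[k] K).toRingHom x F = 0)
    (hC : ∀ g : K[X], g ≠ 0 → g.natDegree < p → (g.map (V : K →+* K)).eval x ≠ 0)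
    (hP : V x ∉ k⟮x⟯) :
    (minpoly k⟮x⟯ (V x)).natDegree = p + 1 ∧ relfinrank k⟮x⟯ (k⟮x⟯ ⊔ k⟮V x⟯) = p + 1 := by
  have hirr := irreducible_polyAt_left hp hF hdeg h1 h2 hC hP
  have hroot : aeval (V x) (polyAt F x) = 0 := by rw [aeval_polyAt]; exact h1
  have hmin : polyAt F x = minpoly k⟮x⟯ (V x) :=
    minpoly.eq_of_irreducible_of_monic hirr hroot (polyAt_monic hF x)
  have hint : IsIntegral k⟮x⟯ (V x) := ⟨polyAt F x, polyAt_monic hF x, hroot⟩
  have hd : (minpoly k⟮x⟯ (V x)).natDegree = p + 1 := by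
    rw [← hmin, natDegree_polyAt hF, hdeg]
  exact ⟨hd, by rw [relfinrank_sup_adjoin_simple _ _ hint, hd]⟩

/-- `[k(x, V x) : k(V x)] = p + 1`. -/
theorem relfinrank_right {p : ℕ} (hp : 2 ≤ p) {x : K} {F : k[X][X]} (hF : F.Monic)
    (hdeg : F.natDegree = p + 1)
    (h1 : eval₂ (aeval x : k[X] →ₐ[k] K).toRingHom (V x) F = 0)
    (h2 : eval₂ (aeval (V x) : k[X] →ₐ[k] K).toRingHom x F = 0)
    (hC : ∀ g : K[X], g ≠ 0 → g.natDegree < p → (g.map (V : K →+* K)).eval x ≠ 0)
    (hP : V x ∉ k⟮x⟯) :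
    (minpoly k⟮V x⟯ x).natDegree = p + 1 ∧ relfinrank k⟮V x⟯ (k⟮x⟯ ⊔ k⟮V x⟯) = p + 1 := by
  have hirr := irreducible_polyAt_right hp hF hdeg h1 h2 hC hP
  have hroot : aeval x (polyAt F (V x)) = 0 := by rw [aeval_polyAt]; exact h2
  have hmin : polyAt F (V x) = minpoly k⟮V x⟯ x :=
    minpoly.eq_of_irreducible_of_monic hirr hroot (polyAt_monic hF _)
  have hint : IsIntegral k⟮V x⟯ x := ⟨polyAt F (V x), polyAt_monic hF _, hroot⟩
  have hd : (minpoly k⟮V x⟯ x).natDegree = p + 1 := by
    rw [← hmin, natDegree_polyAt hF, hdeg]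
  exact ⟨hd, by rw [sup_comm, relfinrank_sup_adjoin_simple _ _ hint, hd]⟩

end Field

end Fermat.Agent.IG.PR.IrredP25
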