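/-
IG/PR/Counting20 (helper20): the PURE ARITHMETIC half of the level induction (IRR_N)
(helper25's counting argument).  No fields here: `deg M` stands for `[L_M : k(x_1)]`.
-/
import Mathlib
import Fermat.Agent.X0.GNPsi

set_option autoImplicit false

namespace Fermat.Agent.IG.PR.Counting20

open ModularCurve Fermat.Agent.X0.GNPsi

theorem psi_prime {p : ℕ} (hp : p.Prime) : dedekindPsi p = p + 1 := by
  have h := gnp_dedekindPsi_prime_pow hp 0
  simpa using h

theorem psi_prime_mul_of_not_dvd {p M : ℕ} (hp : p.Prime) (hpM : ¬ p ∣ M) :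
    dedekindPsi (p * M) = (p + 1) * dedekindPsi M := by
  rw [gnp_dedekindPsi_mul ((Nat.Prime.coprime_iff_not_dvd hp).mpr hpM), psi_prime hp]

theorem psi_prime_mul_of_dvd {p M : ℕ} (hp : p.Prime) (hM : M ≠ 0) (hpM : p ∣ M) :
    dedekindPsi (p * M) = p * dedekindPsi M := by
  obtain ⟨k, M', hM', rfl⟩ := Nat.exists_eq_pow_mul_and_not_dvd hM p hp.ne_one
  have hk : k ≠ 0 := by
    rintro rfl
    rw [pow_zero, one_mul] at hpM
    exact hM' hpM
  obtain ⟨j, rfl⟩ := Nat.exists_eq_succ_of_ne_zero hk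
  have hcop : ∀ n : ℕ, (p ^ n).Coprime M' := fun n =>
    Nat.Coprime.pow_left n ((Nat.Prime.coprime_iff_not_dvd hp).mpr hM')
  have e : p * (p ^ (j + 1) * M') = p ^ (j + 1 + 1) * M' := by ring
  rw [e, gnp_dedekindPsi_mul (hcop _), gnp_dedekindPsi_mul (hcop _),
    gnp_dedekindPsi_prime_pow hp (j + 1), gnp_dedekindPsi_prime_pow hp j]
  ring

/-- The counting induction: lower bound `psi N ≤ deg N` from
* upper bounds at all divisors,
* `deg (p M) = a * deg M` with `a ≥ p` for every prime `p` and every `M` with `p M ∣ N`,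
* `deg p ≥ p + 1` at prime level. -/
theorem psi_le_deg (deg : ℕ → ℕ) : ∀ N : ℕ, 0 < N → 1 ≤ deg 1 →
    (∀ M, M ∣ N → deg M ≤ dedekindPsi M) →
    (∀ p M, p.Prime → p * M ∣ N → ∃ a, p ≤ a ∧ deg (p * M) = a * deg M) →
    (∀ p, p.Prime → p ∣ N → p + 1 ≤ deg p) → dedekindPsi N ≤ deg N := by
  intro N
  induction N using Nat.strong_induction_on with
  | _ N ih =>
  intro hN h1 hU hS hP
  -- restriction of the hypotheses to a divisor
  have ihd : ∀ M, M ∣ N → M < N → dedekindPsi M ≤ deg M := by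
    intro M hMN hlt
    have hM0 : 0 < M := Nat.pos_of_dvd_of_pos hMN hN
    exact ih M hlt hM0 h1 (fun M' h' => hU M' (h'.trans hMN))
      (fun p M' hp h' => hS p M' hp (h'.trans hMN)) (fun p hp h' => hP p hp (h'.trans hMN))
  have heq : ∀ M, M ∣ N → M < N → deg M = dedekindPsi M := fun M hMN hlt =>
    le_antisymm (hU M hMN) (ihd M hMN hlt)
  by_cases hN1 : N = 1
  · subst hN1
    simpa using h1
  by_cases hsq : Squarefree N
  · -- squarefree case
    set p := N.minFac with hpdef
    have hp : p.Prime := Nat.minFac_prime hN1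
    have hpN : p ∣ N := Nat.minFac_dvd N
    obtain ⟨M, hNM⟩ := hpN
    have hM0 : M ≠ 0 := by
      rintro rfl
      rw [mul_zero] at hNM
      omega
    have hpM : ¬ p ∣ M := by
      intro h
      obtain ⟨c, rfl⟩ := h
      have : p * p ∣ N := ⟨c, by rw [hNM]; ring⟩
      exact hp.ne_one (Nat.isUnit_iff.mp (hsq p this))
    have hMN : M ∣ N := ⟨p, by rw [hNM]; ring⟩
    have hMlt : M < N := by
      rw [hNM]
      exact lt_mul_of_one_lt_left (Nat.pos_of_ne_zero hM0) hp.one_lt
    by_cases hM1 : M = 1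
    · subst hM1
      rw [mul_one] at hNM
      rw [hNM, psi_prime hp]
      exact hP p hp (by rw [hNM])
    -- a second prime r | M, p < r
    set r := M.minFac with hrdef
    have hr : r.Prime := Nat.minFac_prime hM1
    obtain ⟨M'', hMM''⟩ := Nat.minFac_dvd M
    have hrN : r ∣ N := (Nat.minFac_dvd M).trans hMN
    have hpr : p ≤ r := Nat.minFac_le_of_dvd hr.two_le hrN
    have hpr' : p < r := by
      refine lt_of_le_of_ne hpr ?_
      intro h
      exact hpM (h ▸ Nat.minFac_dvd M)
    have hM''0 : M'' ≠ 0 := by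
      rintro rfl
      rw [mul_zero] at hMM''
      exact hM0 hMM''
    have hMsq : Squarefree M := hsq.squarefree_of_dvd hMN
    have hrM'' : ¬ r ∣ M'' := by
      intro h
      obtain ⟨c, rfl⟩ := h
      have : r * r ∣ M := ⟨c, by rw [hMM'']; ring⟩
      exact hr.ne_one (Nat.isUnit_iff.mp (hMsq r this))
    have hpM'' : ¬ p ∣ M'' := fun h => hpM (h.trans ⟨r, by rw [hMM'']; ring⟩)
    -- R = N / r = p * M''
    have hNR : N = r * (p * M'') := by rw [hNM, hMM'']; ring
    have hRN : p * M'' ∣ N := ⟨r, by rw [hNR]; ring⟩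
    have hRlt : p * M'' < N := by
      rw [hNR]
      exact lt_mul_of_one_lt_left (Nat.pos_of_ne_zero (Nat.mul_ne_zero hp.ne_zero hM''0)) hr.one_lt
    obtain ⟨a, hpa, hda⟩ := hS p M hp (by rw [hNM])
    obtain ⟨b, hrb, hdb⟩ := hS r (p * M'') hr (by rw [← hNR])
    have e1 : deg M = (r + 1) * dedekindPsi M'' := by
      rw [heq M hMN hMlt, hMM'', psi_prime_mul_of_not_dvd hr hrM'']
    have e2 : deg (p * M'') = (p + 1) * dedekindPsi M'' := by
      rw [heq _ hRN hRlt, psi_prime_mul_of_not_dvd hp hpM'']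
    have hpos : 0 < dedekindPsi M'' := gnp_dedekindPsi_pos hM''0
    have hab : a * (r + 1) = b * (p + 1) := by
      have h3 : a * ((r + 1) * dedekindPsi M'') = b * ((p + 1) * dedekindPsi M'') := by
        rw [← e1, ← e2, ← hda, ← hNM, ← hdb, ← hNR]
      have h4 : (a * (r + 1)) * dedekindPsi M'' = (b * (p + 1)) * dedekindPsi M'' := by
        rw [mul_assoc, mul_assoc]; exact h3
      exact Nat.eq_of_mul_eq_mul_right hpos h4
    have ha : p + 1 ≤ a := by
      by_contra hcon
      have hap : a = p := by omega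
      rw [hap] at hab
      have h5 : r * (p + 1) ≤ b * (p + 1) := Nat.mul_le_mul_right _ hrb
      rw [← hab] at h5
      nlinarith
    calc dedekindPsi N = (p + 1) * dedekindPsi M := by
            rw [hNM, psi_prime_mul_of_not_dvd hp hpM]
      _ = (p + 1) * deg M := by rw [heq M hMN hMlt]
      _ ≤ a * deg M := Nat.mul_le_mul_right _ ha
      _ = deg N := by rw [hNM, hda]
  · -- a square divides N
    rw [Nat.squarefree_iff_prime_squarefree] at hsq
    push Not at hsq
    obtain ⟨p, hp, hppN⟩ := hsq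
    obtain ⟨c, hc⟩ := hppN
    set M := p * c with hMdef
    have hNM : N = p * M := by rw [hc, hMdef]; ring
    have hM0 : M ≠ 0 := by
      intro h
      rw [h, mul_zero] at hNM
      omega
    have hMN : M ∣ N := ⟨p, by rw [hNM]; ring⟩
    have hMlt : M < N := by
      rw [hNM]
      exact lt_mul_of_one_lt_left (Nat.pos_of_ne_zero hM0) hp.one_lt
    obtain ⟨a, hpa, hda⟩ := hS p M hp (by rw [hNM])
    calc dedekindPsi N = p * dedekindPsi M := by
            rw [hNM, psi_prime_mul_of_dvd hp hM0 ⟨c, rfl⟩]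
      _ ≤ a * deg M := Nat.mul_le_mul hpa (ihd M hMN hMlt)
      _ = deg N := by rw [hNM, hda]

end Fermat.Agent.IG.PR.Counting20
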