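/-
Program G (S28, Igusa), chapter IG/PR, helper1: **the tower part of the level induction.**

`k` a field, `K = k((q))`, `x ∈ K` with a simple pole, `V_d = (q ↦ q^d)`, `x_d = V_d x`,
`L_M = k(x_d : d ∣ M)`.  Given, for every prime `p ∣ N`,
`[k(x, x_p) : k(x)] = p + 1 = [k(x, x_p) : k(x_p)]`, and the upper bounds
`[L_M : k(x)] ≤ ψ(M)` for all `M ∣ N`, we get `ψ(N) ≤ [L_N : k(x)]`
(so equality) by helper25's counting argument (`Counting20.psi_le_deg`) and the ramification
lemma (`RamDeg25.le_natDegree_minpoly`).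
-/
import Mathlib
import Fermat.Prelude.Def_ModularCurve_X0ModL
import Fermat.Agent.IG.PR.Counting20
import Fermat.Agent.IG.PR.RamDeg25

set_option autoImplicit false

noncomputable section

namespace Fermat.Agent.IG.PR.LevelTower1

open IntermediateField Module ModularCurve

/-! ### General facts on `relfinrank` and integrality over intermediate fields -/

section General

variable {k K : Type*} [Field k] [Field K] [Algebra k K]

theorem finiteDimensional_extendScalars {A B : IntermediateField k K} (h : A ≤ B)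
    (hne : relfinrank A B ≠ 0) : FiniteDimensional ↥A ↥(extendScalars h) := by
  rw [relfinrank_eq_finrank_of_le h] at hne
  exact FiniteDimensional.of_finrank_pos (Nat.pos_of_ne_zero hne)

/-- Elements of a finite relative extension are integral. -/
theorem isIntegral_of_relfinrank_ne_zero {A B : IntermediateField k K} (h : A ≤ B)
    (hne : relfinrank A B ≠ 0) {y : K} (hy : y ∈ B) : IsIntegral ↥A y := by
  have := finiteDimensional_extendScalars h hne
  have h1 : IsIntegral ↥A (⟨y, hy⟩ : ↥(extendScalars h)) := IsIntegral.of_finite _ _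
  exact (IntermediateField.isIntegral_iff (S := extendScalars h)).1 h1

/-- The degree of an element is at most the relative degree. -/
theorem natDegree_minpoly_le_relfinrank {A B : IntermediateField k K} (h : A ≤ B)
    (hne : relfinrank A B ≠ 0) {y : K} (hy : y ∈ B) :
    (minpoly ↥A y).natDegree ≤ relfinrank A B := by
  have := finiteDimensional_extendScalars h hne
  rw [relfinrank_eq_finrank_of_le h]
  have h1 := minpoly.natDegree_le (A := ↥A) (⟨y, hy⟩ : ↥(extendScalars h))
  rwa [IntermediateField.minpoly_eq] at h1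

/-- A field generated by finitely many integral elements is a finite extension. -/
theorem relfinrank_adjoin_ne_zero {A : IntermediateField k K} {S : Set K} (hS : S.Finite)
    (h : A ≤ adjoin k S) (hint : ∀ y ∈ S, IsIntegral ↥A y) : relfinrank A (adjoin k S) ≠ 0 := by
  have : Finite S := hS.to_subtype
  have : FiniteDimensional ↥A ↥(adjoin ↥A S) := finiteDimensional_adjoin hint
  rw [relfinrank_eq_finrank_of_le h, extendScalars_adjoin h]
  exact Module.finrank_pos.ne'

theorem isIntegral_mono {A A' : IntermediateField k K} (h : A ≤ A') {y : K}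
    (hy : IsIntegral ↥A y) : IsIntegral ↥A' y := by
  obtain ⟨P, hmonic, hP⟩ := hy
  refine ⟨P.map (inclusion h).toRingHom, hmonic.map _, ?_⟩
  rw [Polynomial.eval₂_map]
  exact hP

theorem isIntegral_of_mem {A : IntermediateField k K} {y : K} (hy : y ∈ A) : IsIntegral ↥A y :=
  isIntegral_algebraMap (R := ↥A) (A := K) (x := ⟨y, hy⟩)

theorem isIntegral_map {A : IntermediateField k K} (f : K →ₐ[k] K) {y : K}
    (hy : IsIntegral ↥A y) : IsIntegral ↥(A.map f) (f y) := by
  obtain ⟨P, hmonic, hP⟩ := hy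
  refine ⟨P.map (equivMap A f : ↥A →+* ↥(A.map f)), hmonic.map _, ?_⟩
  rw [Polynomial.eval₂_map]
  have hcomp : (algebraMap ↥(A.map f) K).comp (equivMap A f : ↥A →+* ↥(A.map f)) =
      (f : K →+* K).comp (algebraMap ↥A K) := RingHom.ext fun a => rfl
  rw [hcomp]
  have h1 := Polynomial.hom_eval₂ P (algebraMap ↥A K) (f : K →+* K) y
  rw [hP, map_zero] at h1
  exact h1.symm

end General

/-! ### The fields `L_M(x)` -/

section Levels

variable {k : Type*} [Field k]

/-- The generators `x_d = V_d x`, `d ∣ M`. -/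
def gens (x : LaurentSeries k) (M : ℕ) : Set (LaurentSeries k) :=
  {y | ∃ (d : ℕ) (_ : NeZero d), d ∣ M ∧ y = qExpand k d x}

/-- `L_M(x) = k(x_d : d ∣ M)`; for `x = jqModC k` this is `modularFunctionFieldFullC k M`. -/
def Lx (x : LaurentSeries k) (M : ℕ) : IntermediateField k (LaurentSeries k) :=
  IntermediateField.adjoin k (gens x M)

theorem Lx_jqModC (M : ℕ) [NeZero M] : Lx (jqModC k) M = modularFunctionFieldFullC k M := rfl

theorem mem_gens (x : LaurentSeries k) {M d : ℕ} [NeZero d] (hd : d ∣ M) :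
    qExpand k d x ∈ gens x M := ⟨d, ‹_›, hd, rfl⟩

theorem qExpand_mem_Lx (x : LaurentSeries k) {M d : ℕ} [NeZero d] (hd : d ∣ M) :
    qExpand k d x ∈ Lx x M := subset_adjoin k _ (mem_gens x hd)

theorem self_mem_Lx (x : LaurentSeries k) (M : ℕ) : x ∈ Lx x M := by
  have h := qExpand_mem_Lx x (one_dvd M)
  rwa [qExpand_one_apply] at h

theorem adjoin_simple_le_Lx (x : LaurentSeries k) (M : ℕ) : k⟮x⟯ ≤ Lx x M := by
  rw [adjoin_simple_le_iff]
  exact self_mem_Lx x M

theorem Lx_mono (x : LaurentSeries k) {M M' : ℕ} (h : M ∣ M') : Lx x M ≤ Lx x M' := by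
  apply adjoin.mono
  rintro y ⟨d, hd0, hd, rfl⟩
  exact ⟨d, hd0, hd.trans h, rfl⟩

theorem gens_finite (x : LaurentSeries k) {M : ℕ} (hM : M ≠ 0) : (gens x M).Finite := by
  classical
  let f : ℕ → LaurentSeries k := fun d => if h : d = 0 then 0 else @qExpand k _ d ⟨h⟩ x
  refine Set.Finite.subset ((Finset.finite_toSet (Nat.divisors M)).image f) ?_
  rintro y ⟨d, hd0, hd, rfl⟩
  refine ⟨d, ?_, ?_⟩
  · exact Finset.mem_coe.2 (Nat.mem_divisors.2 ⟨hd, hM⟩)
  · show (if h : d = 0 then 0 else @qExpand k _ d ⟨h⟩ x) = _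
    rw [dif_neg (NeZero.ne d)]

theorem gens_one (x : LaurentSeries k) : gens x 1 = {x} := by
  ext y
  constructor
  · rintro ⟨d, hd0, hd, rfl⟩
    have := hd0
    rw [Set.mem_singleton_iff, qExpand_congr (Nat.dvd_one.1 hd), qExpand_one_apply]
  · intro hy
    rw [Set.mem_singleton_iff.1 hy]
    have h := mem_gens x (one_dvd 1)
    rwa [qExpand_one_apply] at h

theorem Lx_one (x : LaurentSeries k) : Lx x 1 = k⟮x⟯ := by
  rw [Lx, gens_one]

theorem gens_prime (x : LaurentSeries k) {p : ℕ} (hp : p.Prime) [NeZero p] :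
    gens x p = {x, qExpand k p x} := by
  ext y
  constructor
  · rintro ⟨d, hd0, hd, rfl⟩
    have := hd0
    rcases (Nat.dvd_prime hp).1 hd with h | h
    · left
      rw [qExpand_congr h, qExpand_one_apply]
    · right
      rw [Set.mem_singleton_iff, qExpand_congr h]
  · rintro (hy | hy)
    · rw [hy]
      have h := mem_gens x (one_dvd p)
      rwa [qExpand_one_apply] at h
    · rw [Set.mem_singleton_iff.1 hy]
      exact mem_gens x dvd_rfl

theorem Lx_prime (x : LaurentSeries k) {p : ℕ} (hp : p.Prime) [NeZero p] :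
    Lx x p = adjoin k {x, qExpand k p x} := by
  rw [Lx, gens_prime x hp]

/-- The divisors of `p M` are the divisors of `M` and `p` times the divisors of `M`. -/
theorem gens_prime_mul (x : LaurentSeries k) {p M : ℕ} (hp : p.Prime) [NeZero p] {y : LaurentSeries k}
    (hy : y ∈ gens x (p * M)) :
    y ∈ gens x M ∨ ∃ (d : ℕ) (_ : NeZero d), d ∣ M ∧ y = qExpand k d (qExpand k p x) := by
  obtain ⟨d, hd0, hd, rfl⟩ := hy
  have := hd0
  by_cases hpd : p ∣ d
  · right
    obtain ⟨d', rfl⟩ := hpd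
    have hd'0 : d' ≠ 0 := fun h => NeZero.ne (p * d') (by rw [h, mul_zero])
    have : NeZero d' := ⟨hd'0⟩
    refine ⟨d', ‹_›, (Nat.mul_dvd_mul_iff_left hp.pos).1 hd, ?_⟩
    rw [qExpand_qExpand]
    exact qExpand_congr (mul_comm p d') x
  · left
    exact ⟨d, hd0, (Nat.Coprime.dvd_mul_left
      ((Nat.Prime.coprime_iff_not_dvd hp).2 hpd).symm).1 hd, rfl⟩

theorem map_Lx_le (x : LaurentSeries k) (p M : ℕ) [NeZero p] :
    (Lx x M).map (qExpandAlgHomC k p) ≤ Lx x (p * M) := by
  rw [Lx, adjoin_map, adjoin_le_iff]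
  rintro _ ⟨_, ⟨d, hd0, hd, rfl⟩, rfl⟩
  have := hd0
  have : NeZero (p * d) := ⟨Nat.mul_ne_zero (NeZero.ne p) (NeZero.ne d)⟩
  show qExpandAlgHomC k p (qExpand k d x) ∈ _
  rw [qExpandAlgHomC_apply, qExpand_qExpand]
  exact qExpand_mem_Lx x (mul_dvd_mul_left p hd)

theorem map_adjoin_simple (x : LaurentSeries k) (p : ℕ) [NeZero p] :
    (k⟮x⟯).map (qExpandAlgHomC k p) = k⟮qExpand k p x⟯ := by
  rw [adjoin_map, Set.image_singleton, qExpandAlgHomC_apply]

end Levels

/-! ### Finiteness of `L_M / k(x)` -/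

section Tower

variable {k : Type*} [Field k]

/-- `x_{dp} = V_d x_p` is integral over `k(x_d)` as soon as `k(x, x_p)/k(x)` is finite. -/
theorem isIntegral_qExpand_qExpand (x : LaurentSeries k) {p : ℕ} [NeZero p]
    (hfin : relfinrank k⟮x⟯ (adjoin k {x, qExpand k p x}) ≠ 0) (d : ℕ) [NeZero d] :
    IsIntegral ↥(k⟮qExpand k d x⟯) (qExpand k d (qExpand k p x)) := by
  have hle : k⟮x⟯ ≤ adjoin k {x, qExpand k p x} :=
    adjoin.mono k _ _ (Set.singleton_subset_iff.2 (Set.mem_insert _ _))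
  have h1 : IsIntegral ↥(k⟮x⟯) (qExpand k p x) :=
    isIntegral_of_relfinrank_ne_zero hle hfin
      (subset_adjoin k _ (Set.mem_insert_of_mem _ rfl))
  have h2 := isIntegral_map (qExpandAlgHomC k d) h1
  exact isIntegral_mono (le_of_eq (map_adjoin_simple x d)) h2

/-- `L_M` is finite over `k(x)` for every `M ∣ N`. -/
theorem relfinrank_Lx_ne_zero (x : LaurentSeries k) (N : ℕ) (hN : 0 < N)
    (hfin : ∀ p, p.Prime → p ∣ N → ∀ [NeZero p],
      relfinrank k⟮x⟯ (adjoin k {x, qExpand k p x}) ≠ 0) :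
    ∀ M, M ∣ N → relfinrank k⟮x⟯ (Lx x M) ≠ 0 := by
  intro M
  induction M using induction_on_primes with
  | zero =>
    intro h
    rw [zero_dvd_iff] at h
    omega
  | one =>
    intro _
    rw [Lx_one, relfinrank_self]
    exact one_ne_zero
  | prime_mul p a hp ih =>
    intro hpa
    have : NeZero p := ⟨hp.ne_zero⟩
    have hpN : p ∣ N := (dvd_mul_right p a).trans hpa
    have haN : a ∣ N := (dvd_mul_left a p).trans hpa
    have ha0 : a ≠ 0 := by
      rintro rfl
      rw [mul_zero, zero_dvd_iff] at hpa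
      omega
    have h1 := ih haN
    have hle : Lx x a ≤ Lx x (p * a) := Lx_mono x (dvd_mul_left a p)
    have h2 : relfinrank (Lx x a) (Lx x (p * a)) ≠ 0 := by
      refine relfinrank_adjoin_ne_zero (gens_finite x (Nat.mul_ne_zero hp.ne_zero ha0)) hle ?_
      intro y hy
      rcases gens_prime_mul x hp hy with h | ⟨d, hd0, hd, rfl⟩
      · exact isIntegral_of_mem (subset_adjoin k _ h)
      · have := hd0
        refine isIntegral_mono ?_ (isIntegral_qExpand_qExpand x (hfin p hp hpN) d)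
        rw [adjoin_simple_le_iff]
        exact qExpand_mem_Lx x hd
    rw [← relfinrank_mul_relfinrank (adjoin_simple_le_Lx x a) hle]
    exact mul_ne_zero h1 h2

/-! ### The step `deg (p M) = a · deg M`, `a ≥ p` -/

theorem exists_mul_relfinrank (x : LaurentSeries k) (hx : x.order = -1) (N : ℕ) (hN : 0 < N)
    (hI : ∀ p, p.Prime → p ∣ N → ∀ [NeZero p],
      relfinrank k⟮x⟯ (adjoin k {x, qExpand k p x}) = p + 1 ∧
      relfinrank k⟮qExpand k p x⟯ (adjoin k {x, qExpand k p x}) = p + 1)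
    (p M : ℕ) (hp : p.Prime) (hpM : p * M ∣ N) :
    ∃ a, p ≤ a ∧ relfinrank k⟮x⟯ (Lx x (p * M)) = a * relfinrank k⟮x⟯ (Lx x M) := by
  have : NeZero p := ⟨hp.ne_zero⟩
  have hpN : p ∣ N := (dvd_mul_right p M).trans hpM
  obtain ⟨h1, h2⟩ := hI p hp hpN
  have hA1E : k⟮x⟯ ≤ adjoin k {x, qExpand k p x} :=
    adjoin.mono k _ _ (Set.singleton_subset_iff.2 (Set.mem_insert _ _))
  have hApE : k⟮qExpand k p x⟯ ≤ adjoin k {x, qExpand k p x} :=
    adjoin.mono k _ _ (Set.singleton_subset_iff.2 (Set.mem_insert_of_mem _ rfl))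
  have hEL : adjoin k {x, qExpand k p x} ≤ Lx x (p * M) := by
    rw [adjoin_le_iff]
    rintro y (rfl | hy)
    · exact self_mem_Lx _ _
    · rw [Set.mem_singleton_iff.1 hy]
      exact qExpand_mem_Lx x (dvd_mul_right p M)
  have hFL : (Lx x M).map (qExpandAlgHomC k p) ≤ Lx x (p * M) := map_Lx_le x p M
  have hApF : k⟮qExpand k p x⟯ ≤ (Lx x M).map (qExpandAlgHomC k p) := by
    rw [adjoin_simple_le_iff]
    exact ⟨x, self_mem_Lx x M, rfl⟩
  have t1 := relfinrank_mul_relfinrank hA1E hEL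
  have t2 := relfinrank_mul_relfinrank hApE hEL
  have t3 := relfinrank_mul_relfinrank hApF hFL
  have t4 : relfinrank k⟮qExpand k p x⟯ ((Lx x M).map (qExpandAlgHomC k p)) =
      relfinrank k⟮x⟯ (Lx x M) := by
    rw [← map_adjoin_simple x p]
    exact relfinrank_map_map _ _ (qExpandAlgHomC k p)
  have hdeg : relfinrank k⟮x⟯ (Lx x (p * M)) =
      relfinrank ((Lx x M).map (qExpandAlgHomC k p)) (Lx x (p * M)) *
        relfinrank k⟮x⟯ (Lx x M) := by
    rw [← t1, h1, ← h2, t2, ← t3, t4, mul_comm]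
  refine ⟨_, ?_, hdeg⟩
  have hne : relfinrank k⟮x⟯ (Lx x (p * M)) ≠ 0 :=
    relfinrank_Lx_ne_zero x N hN (fun q hq hqN _ => by
      rw [(hI q hq hqN).1]
      exact Nat.succ_ne_zero q) (p * M) hpM
  have ha : relfinrank ((Lx x M).map (qExpandAlgHomC k p)) (Lx x (p * M)) ≠ 0 := by
    intro h
    rw [h, zero_mul] at hdeg
    exact hne hdeg
  have hxL : x ∈ Lx x (p * M) := self_mem_Lx x _
  have hint := isIntegral_of_relfinrank_ne_zero hFL ha hxL
  have hle := natDegree_minpoly_le_relfinrank hFL ha hxL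
  have hx0 : x ≠ 0 := by
    rintro rfl
    rw [HahnSeries.order_zero] at hx
    omega
  have hcop : IsCoprime x.order (p : ℤ) := by
    rw [hx]
    exact (isCoprime_one_left (x := (p : ℤ))).neg_left
  have hram : p ≤ (minpoly ↥((Lx x M).map (qExpandAlgHomC k p)) x).natDegree := by
    refine Fermat.Agent.IG.PR.RamDeg25.le_natDegree_minpoly hx0 hcop ?_ hint
    intro a
    obtain ⟨z, _, hz⟩ := a.2
    exact ⟨z, hz⟩
  exact hram.trans hle

/-- **Level tower.**  Lower bound `ψ(N) ≤ [L_N : k(x)]` from the prime-level degrees and the upper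
bounds at all divisors of `N`. -/
theorem levelTower (x : LaurentSeries k) (hx : x.order = -1) (N : ℕ) (hN : 0 < N)
    (hI : ∀ p, p.Prime → p ∣ N → ∀ [NeZero p],
      relfinrank k⟮x⟯ (adjoin k {x, qExpand k p x}) = p + 1 ∧
      relfinrank k⟮qExpand k p x⟯ (adjoin k {x, qExpand k p x}) = p + 1)
    (hub : ∀ M, M ∣ N → relfinrank k⟮x⟯ (Lx x M) ≤ dedekindPsi M) :
    dedekindPsi N ≤ relfinrank k⟮x⟯ (Lx x N) := by
  refine Fermat.Agent.IG.PR.Counting20.psi_le_deg (fun M => relfinrank k⟮x⟯ (Lx x M)) N hN ?_ hub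
    (fun p M hp hpM => exists_mul_relfinrank x hx N hN hI p M hp hpM) ?_
  · show 1 ≤ relfinrank k⟮x⟯ (Lx x 1)
    rw [Lx_one, relfinrank_self]
  · intro p hp hpN
    have : NeZero p := ⟨hp.ne_zero⟩
    show p + 1 ≤ relfinrank k⟮x⟯ (Lx x p)
    rw [Lx_prime x hp, (hI p hp hpN).1]

/-- Equality version. -/
theorem relfinrank_Lx_eq (x : LaurentSeries k) (hx : x.order = -1) (N : ℕ) (hN : 0 < N)
    (hI : ∀ p, p.Prime → p ∣ N → ∀ [NeZero p],
      relfinrank k⟮x⟯ (adjoin k {x, qExpand k p x}) = p + 1 ∧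
      relfinrank k⟮qExpand k p x⟯ (adjoin k {x, qExpand k p x}) = p + 1)
    (hub : ∀ M, M ∣ N → relfinrank k⟮x⟯ (Lx x M) ≤ dedekindPsi M) :
    relfinrank k⟮x⟯ (Lx x N) = dedekindPsi N :=
  le_antisymm (hub N dvd_rfl) (levelTower x hx N hN hI hub)

end Tower

end Fermat.Agent.IG.PR.LevelTower1
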