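/-
IG/PR/LxDef20 (helper20): the level-`M` field `Lx x M = k(V_d x : d ∣ M) ⊂ k((q))` for an arbitrary
Laurent series `x` (shared definition for the level induction; for `x = jqModC k` it is the prelude's
`modularFunctionFieldFullC k M`, by `rfl`).
-/
import Mathlib
import Fermat.Prelude.Def_ModularCurve_X0ModL

set_option autoImplicit false

noncomputable section

open ModularCurve IntermediateField

namespace Fermat.Agent.IG.PR.LxDef20

variable {k : Type*} [Field k]

/-- The generators `V_d x`, `d ∣ M` (same set-builder shape as the prelude's `divisorExpansionsC`). -/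
def gens (x : LaurentSeries k) (M : ℕ) : Set (LaurentSeries k) :=
  {y | ∃ (d : ℕ) (_ : NeZero d), d ∣ M ∧ y = qExpand k d x}

/-- `Lx x M = k(V_d x : d ∣ M)`. -/
def Lx (x : LaurentSeries k) (M : ℕ) : IntermediateField k (LaurentSeries k) :=
  IntermediateField.adjoin k (gens x M)

theorem Lx_jq (M : ℕ) [NeZero M] : Lx (jqModC k) M = modularFunctionFieldFullC k M := rfl

theorem qExpand_mem_gens (x : LaurentSeries k) {d M : ℕ} [NeZero d] (h : d ∣ M) :
    qExpand k d x ∈ gens x M := ⟨d, ‹_›, h, rfl⟩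

theorem qExpand_mem_Lx (x : LaurentSeries k) {d M : ℕ} [NeZero d] (h : d ∣ M) :
    qExpand k d x ∈ Lx x M := subset_adjoin k _ (qExpand_mem_gens x h)

theorem self_mem_Lx (x : LaurentSeries k) (M : ℕ) : x ∈ Lx x M := by
  have := qExpand_mem_Lx x (one_dvd M)
  rwa [qExpand_one_apply] at this

theorem gens_mono (x : LaurentSeries k) {M N : ℕ} (h : M ∣ N) : gens x M ⊆ gens x N := by
  rintro y ⟨d, hd, hdM, rfl⟩
  exact ⟨d, hd, hdM.trans h, rfl⟩

theorem Lx_mono (x : LaurentSeries k) {M N : ℕ} (h : M ∣ N) : Lx x M ≤ Lx x N :=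
  IntermediateField.adjoin.mono k _ _ (gens_mono x h)

theorem adjoin_simple_le_Lx (x : LaurentSeries k) (M : ℕ) : k⟮x⟯ ≤ Lx x M := by
  rw [adjoin_simple_le_iff]
  exact self_mem_Lx x M

theorem gens_one (x : LaurentSeries k) : gens x 1 = {x} := by
  ext y
  constructor
  · rintro ⟨d, hd, hd1, rfl⟩
    have : d = 1 := Nat.dvd_one.mp hd1
    subst this
    rw [qExpand_one_apply]
    rfl
  · rintro rfl
    exact ⟨1, ⟨one_ne_zero⟩, dvd_rfl, (qExpand_one_apply _).symm⟩

theorem Lx_one (x : LaurentSeries k) : Lx x 1 = k⟮x⟯ := by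
  rw [Lx, gens_one]

theorem gens_prime (x : LaurentSeries k) {p : ℕ} [NeZero p] (hp : p.Prime) :
    gens x p = {x, qExpand k p x} := by
  ext y
  constructor
  · rintro ⟨d, hd, hdp, rfl⟩
    rcases (Nat.dvd_prime hp).mp hdp with h | h
    · subst h
      rw [qExpand_one_apply]
      exact Set.mem_insert _ _
    · subst h
      exact Set.mem_insert_of_mem _ rfl
  · rintro (rfl | rfl)
    · exact ⟨1, ⟨one_ne_zero⟩, one_dvd p, (qExpand_one_apply _).symm⟩
    · exact ⟨p, ‹_›, dvd_rfl, rfl⟩

theorem Lx_prime (x : LaurentSeries k) {p : ℕ} [NeZero p] (hp : p.Prime) :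
    Lx x p = IntermediateField.adjoin k {x, qExpand k p x} := by
  rw [Lx, gens_prime x hp]

end Fermat.Agent.IG.PR.LxDef20
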