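/-
Program G (S28, Igusa), chapter IG/PR, helper1: `LevelTower1.levelTower` restated in the shared
shapes of the chapter:
* the level fields are `LxDef20.Lx x M` (definitionally equal to `LevelTower1.Lx x M`);
* the prime-level hypothesis uses the compositum `k⟮x⟯ ⊔ k⟮V_p x⟯` (output shape of `IrredP25`);
* a version directly from the modular equation data (`hPhi`) and Theorem P (`hP`);
* the specialisation to `x = jqModC k`, `L_M = modularFunctionFieldFullC k M`.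
-/
import Mathlib
import Fermat.Agent.IG.PR.LxDef20
import Fermat.Agent.IG.PR.IrredP25
import Fermat.Agent.IG.PR.LevelTower1

set_option autoImplicit false

namespace Fermat.Agent.IG.PR.LevelTowerBridge1

open IntermediateField ModularCurve Polynomial

variable {k : Type*} [Field k]

theorem Lx_eq (x : LaurentSeries k) (M : ℕ) :
    Fermat.Agent.IG.PR.LevelTower1.Lx x M = Fermat.Agent.IG.PR.LxDef20.Lx x M := rfl

theorem sup_adjoin_simple_eq (x y : LaurentSeries k) : k⟮x⟯ ⊔ k⟮y⟯ = adjoin k {x, y} := by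
  rw [← adjoin_union, Set.singleton_union]

/-- `levelTower` with `LxDef20.Lx` and the compositum form of the prime-level hypothesis. -/
theorem levelTower_sup (x : LaurentSeries k) (hx : x.order = -1) (N : ℕ) (hN : 0 < N)
    (hI : ∀ p, p.Prime → p ∣ N → ∀ [NeZero p],
      relfinrank k⟮x⟯ (k⟮x⟯ ⊔ k⟮qExpand k p x⟯) = p + 1 ∧
      relfinrank k⟮qExpand k p x⟯ (k⟮x⟯ ⊔ k⟮qExpand k p x⟯) = p + 1)
    (hub : ∀ M, M ∣ N → relfinrank k⟮x⟯ (Fermat.Agent.IG.PR.LxDef20.Lx x M) ≤ dedekindPsi M) :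
    dedekindPsi N ≤ relfinrank k⟮x⟯ (Fermat.Agent.IG.PR.LxDef20.Lx x N) := by
  refine Fermat.Agent.IG.PR.LevelTower1.levelTower x hx N hN ?_ hub
  intro p hp hpN _
  have h := hI p hp hpN
  rw [sup_adjoin_simple_eq] at h
  exact h

/-- Equality version. -/
theorem relfinrank_Lx_eq_sup (x : LaurentSeries k) (hx : x.order = -1) (N : ℕ) (hN : 0 < N)
    (hI : ∀ p, p.Prime → p ∣ N → ∀ [NeZero p],
      relfinrank k⟮x⟯ (k⟮x⟯ ⊔ k⟮qExpand k p x⟯) = p + 1 ∧
      relfinrank k⟮qExpand k p x⟯ (k⟮x⟯ ⊔ k⟮qExpand k p x⟯) = p + 1)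
    (hub : ∀ M, M ∣ N → relfinrank k⟮x⟯ (Fermat.Agent.IG.PR.LxDef20.Lx x M) ≤ dedekindPsi M) :
    relfinrank k⟮x⟯ (Fermat.Agent.IG.PR.LxDef20.Lx x N) = dedekindPsi N :=
  le_antisymm (hub N dvd_rfl) (levelTower_sup x hx N hN hI hub)

/-- The prime-level degrees (both sides) from the modular equation and Theorem P. -/
theorem prime_level (x : LaurentSeries k) (hx : x.order = -1) {p : ℕ} [NeZero p] (hp : p.Prime)
    (hPhi : ∃ F : k[X][X], F.Monic ∧ F.natDegree = p + 1 ∧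
      eval₂ (aeval x : k[X] →ₐ[k] LaurentSeries k).toRingHom (qExpand k p x) F = 0 ∧
      eval₂ (aeval (qExpand k p x) : k[X] →ₐ[k] LaurentSeries k).toRingHom x F = 0)
    (hP : qExpand k p x ∉ k⟮x⟯) :
    relfinrank k⟮x⟯ (k⟮x⟯ ⊔ k⟮qExpand k p x⟯) = p + 1 ∧
      relfinrank k⟮qExpand k p x⟯ (k⟮x⟯ ⊔ k⟮qExpand k p x⟯) = p + 1 := by
  obtain ⟨F, hF, hdeg, h1, h2⟩ := hPhi
  have hC : ∀ g : (LaurentSeries k)[X], g ≠ 0 → g.natDegree < p →
      (g.map ((qExpandAlgHomC k p : LaurentSeries k →ₐ[k] LaurentSeries k) :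
        LaurentSeries k →+* LaurentSeries k)).eval x ≠ 0 := fun g hg hd =>
    Fermat.Agent.IG.PR.RamDeg25.eval_map_qExpand_ne_zero_of_order hx g hg hd
  exact ⟨(Fermat.Agent.IG.PR.IrredP25.relfinrank_left (V := qExpandAlgHomC k p) hp.two_le hF hdeg
      h1 h2 hC hP).2,
    (Fermat.Agent.IG.PR.IrredP25.relfinrank_right (V := qExpandAlgHomC k p) hp.two_le hF hdeg
      h1 h2 hC hP).2⟩

/-- **(IRR_N), abstract form**: from the modular equations `hPhi` and Theorem P `hP` at the primes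
dividing `N`, and the upper bounds at the divisors of `N`: `[L_N : k(x)] = ψ(N)`. -/
theorem relfinrank_Lx_eq_of_inputs (x : LaurentSeries k) (hx : x.order = -1) (N : ℕ) (hN : 0 < N)
    (hPhi : ∀ p, p.Prime → p ∣ N → ∀ [NeZero p], ∃ F : k[X][X], F.Monic ∧ F.natDegree = p + 1 ∧
      eval₂ (aeval x : k[X] →ₐ[k] LaurentSeries k).toRingHom (qExpand k p x) F = 0 ∧
      eval₂ (aeval (qExpand k p x) : k[X] →ₐ[k] LaurentSeries k).toRingHom x F = 0)
    (hP : ∀ p, p.Prime → p ∣ N → ∀ [NeZero p], qExpand k p x ∉ k⟮x⟯)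
    (hub : ∀ M, M ∣ N → relfinrank k⟮x⟯ (Fermat.Agent.IG.PR.LxDef20.Lx x M) ≤ dedekindPsi M) :
    relfinrank k⟮x⟯ (Fermat.Agent.IG.PR.LxDef20.Lx x N) = dedekindPsi N :=
  relfinrank_Lx_eq_sup x hx N hN
    (fun p hp hpN _ => prime_level x hx hp (hPhi p hp hpN) (hP p hp hpN)) hub

/-- Specialisation to `x = jqModC k`: `[modularFunctionFieldFullC k N : k(j)] = ψ(N)`. -/
theorem relfinrank_full_eq_of_inputs (hx : (jqModC k).order = -1) (N : ℕ) [NeZero N]
    (hPhi : ∀ p, p.Prime → p ∣ N → ∀ [NeZero p], ∃ F : k[X][X], F.Monic ∧ F.natDegree = p + 1 ∧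
      eval₂ (aeval (jqModC k) : k[X] →ₐ[k] LaurentSeries k).toRingHom
        (qExpand k p (jqModC k)) F = 0 ∧
      eval₂ (aeval (qExpand k p (jqModC k)) : k[X] →ₐ[k] LaurentSeries k).toRingHom
        (jqModC k) F = 0)
    (hP : ∀ p, p.Prime → p ∣ N → ∀ [NeZero p], qExpand k p (jqModC k) ∉ k⟮jqModC k⟯)
    (hub : ∀ M, M ∣ N → ∀ [NeZero M],
      relfinrank k⟮jqModC k⟯ (modularFunctionFieldFullC k M) ≤ dedekindPsi M) :
    relfinrank k⟮jqModC k⟯ (modularFunctionFieldFullC k N) = dedekindPsi N := by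
  have hN : 0 < N := Nat.pos_of_ne_zero (NeZero.ne N)
  refine relfinrank_Lx_eq_of_inputs (jqModC k) hx N hN hPhi hP ?_
  intro M hM
  have : NeZero M := ⟨fun h => by rw [h, zero_dvd_iff] at hM; omega⟩
  exact hub M hM

end Fermat.Agent.IG.PR.LevelTowerBridge1
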