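/-
Program G (S28, Igusa), chapter IG/PR, helper1: complements to `Theta20` (the derivation
`θ = q d/dq` on Laurent series, by helper20) and its interaction with
`V = (q ↦ q^p) = ModularCurve.qExpand R p`.

* `theta_inv`, `theta_div` (over a field);
* orders: `order_qExpand`, `theta_ne_zero_of_order_eq_neg_one`;
* `exists_theta_eq_mul_of_mem_adjoin`: `θ (k(x)) ⊆ k(x) · θ x`.
-/
import Mathlib
import Fermat.Agent.IG.PR.Theta20

set_option autoImplicit false

namespace Fermat.Agent.IG.PR.ThetaV1

open HahnSeries ModularCurve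
open Fermat.Agent.IG.PR.Theta20

section Ring

variable {R : Type*} [CommRing R]

variable (p : ℕ) [NeZero p]

theorem qExpand_ne_zero {f : LaurentSeries R} (hf : f ≠ 0) : qExpand R p f ≠ 0 := fun h =>
  hf (qExpand_injective p (h.trans (map_zero _).symm))

/-- A lower bound for the order from vanishing coefficients. -/
theorem le_order_of_forall_lt {f : LaurentSeries R} (hf : f ≠ 0) {a : ℤ}
    (h : ∀ i < a, f.coeff i = 0) : a ≤ f.order := by
  by_contra hlt
  push Not at hlt
  exact hf (HahnSeries.coeff_order_eq_zero.1 (h _ hlt))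

/-- `ord (V f) = p · ord f`. -/
theorem order_qExpand (f : LaurentSeries R) : (qExpand R p f).order = (p : ℤ) * f.order := by
  by_cases hf : f = 0
  · rw [hf, map_zero, HahnSeries.order_zero, mul_zero]
  apply le_antisymm
  · apply HahnSeries.order_le_of_coeff_ne_zero
    rw [qExpand_coeff_mul]
    exact fun h => hf (HahnSeries.coeff_order_eq_zero.1 h)
  · apply le_order_of_forall_lt (qExpand_ne_zero p hf)
    intro i hi
    by_cases hn : (p : ℤ) ∣ i
    · obtain ⟨m, rfl⟩ := hn
      rw [qExpand_coeff_mul]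
      apply HahnSeries.coeff_eq_zero_of_lt_order
      have hp : (0 : ℤ) < p := by exact_mod_cast Nat.pos_of_ne_zero (NeZero.ne p)
      exact lt_of_mul_lt_mul_left hi hp.le
    · exact qExpand_coeff_of_not_dvd p f hn

end Ring

section Field

variable {k : Type*} [Field k]

theorem theta_inv (f : LaurentSeries k) : theta f⁻¹ = -(theta f) * (f⁻¹) ^ 2 := by
  by_cases hf : f = 0
  · rw [hf, inv_zero, map_zero, neg_zero, zero_mul]
  have h1 : theta (f * f⁻¹) = 0 := by rw [mul_inv_cancel₀ hf, theta_one]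
  rw [theta_mul] at h1
  have h2 : f * theta f⁻¹ = -(theta f * f⁻¹) := by
    rw [eq_neg_iff_add_eq_zero, add_comm]
    exact h1
  have h3 : theta f⁻¹ = f⁻¹ * (f * theta f⁻¹) := by
    rw [← mul_assoc, inv_mul_cancel₀ hf, one_mul]
  rw [h3, h2]
  ring

theorem theta_div (f g : LaurentSeries k) :
    theta (f / g) = theta f * g⁻¹ - f * theta g * (g⁻¹) ^ 2 := by
  rw [div_eq_mul_inv, theta_mul, theta_inv]
  ring

/-- If `x` has a simple pole, `θ x ≠ 0` (in every characteristic). -/
theorem theta_ne_zero_of_order_eq_neg_one {x : LaurentSeries k} (hx : x.order = -1) :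
    theta x ≠ 0 := by
  have hx0 : x ≠ 0 := by
    rintro rfl
    rw [HahnSeries.order_zero] at hx
    exact absurd hx (by norm_num)
  have h1 : x.coeff (-1) ≠ 0 := by
    rw [← hx]
    exact fun h => hx0 (HahnSeries.coeff_order_eq_zero.1 h)
  apply HahnSeries.ne_zero_of_coeff_ne_zero (g := -1)
  rw [theta_coeff]
  push_cast
  simpa using h1

open IntermediateField in
/-- **`θ (k(x)) ⊆ k(x) · θ x`.** -/
theorem exists_theta_eq_mul_of_mem_adjoin (x : LaurentSeries k) {r : LaurentSeries k}
    (hr : r ∈ IntermediateField.adjoin k {x}) :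
    ∃ c ∈ IntermediateField.adjoin k {x}, theta r = c * theta x := by
  induction hr using IntermediateField.adjoin_induction with
  | mem y hy =>
    rw [Set.mem_singleton_iff.1 hy]
    exact ⟨1, one_mem _, (one_mul _).symm⟩
  | algebraMap c =>
    refine ⟨0, zero_mem _, ?_⟩
    rw [zero_mul, algebraMap_laurentSeries_eq_single, ← HahnSeries.C_apply]
    exact theta_C c
  | add a b _ _ ha hb =>
    obtain ⟨ca, hca, ha⟩ := ha
    obtain ⟨cb, hcb, hb⟩ := hb
    exact ⟨ca + cb, add_mem hca hcb, by rw [map_add, ha, hb, add_mul]⟩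
  | inv a ha' ha =>
    obtain ⟨ca, hca, ha⟩ := ha
    refine ⟨-ca * (a⁻¹) ^ 2, mul_mem (neg_mem hca) (pow_mem (inv_mem ha') 2), ?_⟩
    rw [theta_inv, ha]
    ring
  | mul a b ha' hb' ha hb =>
    obtain ⟨ca, hca, ha⟩ := ha
    obtain ⟨cb, hcb, hb⟩ := hb
    refine ⟨ca * b + a * cb, add_mem (mul_mem hca hb') (mul_mem ha' hcb), ?_⟩
    rw [theta_mul, ha, hb]
    ring

end Field

end Fermat.Agent.IG.PR.ThetaV1
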