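/-
Program G (S28, Igusa), chapter IG/PR, helper1: **Theorem P, abstract core (blueprint §2 (P3)).**

`k` a field, `K = k((q))`, `V = (q ↦ q^p)`, `p ≥ 2` invertible in `k`.  Let `x ∈ K` have a simple pole,
and let `Q, D ∈ K`, `c ∈ k` satisfy
* `(θ x)² = Q · x · (x - c)`               (reduction of `(θ j)² = E₄ j (j - 1728)`),
* `x · D = Q³`, `ord D = 1`                 (reduction of `j Δ = E₄³`),
* `V D / D` is integral over `k[x]`         (reduction of (P2): the modular unit `Δ(q^p)/Δ(q)`).
Then `V x ∉ k(x)`.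
-/
import Mathlib
import Fermat.Agent.IG.PR.ThetaV1

set_option autoImplicit false

namespace Fermat.Agent.IG.PR.TheoremP1

open HahnSeries ModularCurve Polynomial
open Fermat.Agent.IG.PR.Theta20 Fermat.Agent.IG.PR.ThetaV1

variable {k : Type*} [Field k]

/-! ### Polynomials in an element with a simple pole -/

theorem ne_zero_of_order_eq_neg_one {x : LaurentSeries k} (hx : x.order = -1) : x ≠ 0 := by
  rintro rfl
  rw [HahnSeries.order_zero] at hx
  exact absurd hx (by norm_num)

theorem order_pow_of_order_eq_neg_one {x : LaurentSeries k} (hx : x.order = -1) (n : ℕ) :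
    (x ^ n).order = -(n : ℤ) := by
  rw [HahnSeries.order_pow, hx]
  simp

/-- Coefficients of a constant multiple. -/
theorem coeff_algebraMap_mul (r : k) (y : LaurentSeries k) (n : ℤ) :
    (algebraMap k (LaurentSeries k) r * y).coeff n = r * y.coeff n := by
  rw [algebraMap_laurentSeries_eq_single, ← HahnSeries.C_apply, HahnSeries.C_mul_eq_smul,
    HahnSeries.coeff_smul, smul_eq_mul]

/-- The coefficient of `q^{-n}` in `f(x)`, `n = deg f`, is `lc(f) · x₋₁ⁿ`. -/
theorem coeff_aeval_neg_natDegree {x : LaurentSeries k} (hx : x.order = -1) (f : k[X]) :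
    (aeval x f).coeff (-(f.natDegree : ℤ)) = f.leadingCoeff * (x ^ f.natDegree).coeff
      (-(f.natDegree : ℤ)) := by
  rw [aeval_def, eval₂_eq_sum_range, HahnSeries.coeff_sum, Finset.sum_range_succ]
  refine (congrArg (· + _) (Finset.sum_eq_zero fun i hi => ?_)).trans ?_
  · rw [coeff_algebraMap_mul]
    have : (x ^ i).coeff (-(f.natDegree : ℤ)) = 0 := by
      apply HahnSeries.coeff_eq_zero_of_lt_order
      rw [order_pow_of_order_eq_neg_one hx]
      have := Finset.mem_range.1 hi
      omega
    rw [this, mul_zero]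
  · rw [zero_add, coeff_algebraMap_mul]
    rfl

theorem aeval_ne_zero {x : LaurentSeries k} (hx : x.order = -1) {f : k[X]} (hf : f ≠ 0) :
    aeval x f ≠ 0 := by
  apply HahnSeries.ne_zero_of_coeff_ne_zero (g := -(f.natDegree : ℤ))
  rw [coeff_aeval_neg_natDegree hx]
  apply mul_ne_zero (leadingCoeff_ne_zero.2 hf)
  rw [← order_pow_of_order_eq_neg_one hx]
  exact fun h => pow_ne_zero _ (ne_zero_of_order_eq_neg_one hx) (HahnSeries.coeff_order_eq_zero.1 h)

/-- `ord f(x) ≤ 0` for a nonzero polynomial `f`. -/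
theorem order_aeval_le {x : LaurentSeries k} (hx : x.order = -1) {f : k[X]} (hf : f ≠ 0) :
    (aeval x f).order ≤ 0 := by
  have h1 : (aeval x f).coeff (-(f.natDegree : ℤ)) ≠ 0 := by
    rw [coeff_aeval_neg_natDegree hx]
    apply mul_ne_zero (leadingCoeff_ne_zero.2 hf)
    rw [← order_pow_of_order_eq_neg_one hx]
    exact fun h => pow_ne_zero _ (ne_zero_of_order_eq_neg_one hx)
      (HahnSeries.coeff_order_eq_zero.1 h)
  have h2 := HahnSeries.order_le_of_coeff_ne_zero h1
  omega

/-- An element with a simple pole is transcendental over `k`. -/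
theorem aeval_injective {x : LaurentSeries k} (hx : x.order = -1) :
    Function.Injective (aeval (R := k) x) := by
  rw [injective_iff_map_eq_zero]
  intro f hf
  by_contra h
  exact aeval_ne_zero hx h hf

/-! ### `k[x]` is integrally closed in `k(x)` -/

open scoped IntermediateField.algebraAdjoinAdjoin in
/-- If `x` has a simple pole (so is transcendental over `k`), an element of `k(x)` which is integral
over `k[x]` is a polynomial in `x`. -/
theorem exists_aeval_eq_of_isIntegral {x : LaurentSeries k} (hx : x.order = -1)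
    {u : LaurentSeries k} (hu : u ∈ IntermediateField.adjoin k {x})
    (hint : IsIntegral (Algebra.adjoin k {x}) u) : ∃ f : k[X], aeval x f = u := by
  have hinj := aeval_injective hx
  let e : k[X] ≃ₐ[k] (Algebra.adjoin k {x}) :=
    (AlgEquiv.ofInjective (aeval x) hinj).trans
      (Subalgebra.equivOfEq _ _ (Algebra.adjoin_singleton_eq_range_aeval k x).symm)
  have : IsIntegrallyClosed (Algebra.adjoin k {x}) := IsIntegrallyClosed.of_equiv e.toRingEquiv
  have h' : IsIntegral (Algebra.adjoin k {x}) (⟨u, hu⟩ : IntermediateField.adjoin k {x}) :=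
    (isIntegral_algHom_iff (IsScalarTower.toAlgHom (Algebra.adjoin k {x})
      (IntermediateField.adjoin k {x}) (LaurentSeries k)) Subtype.val_injective
      (x := ⟨u, hu⟩)).1 hint
  obtain ⟨a, ha⟩ := IsIntegrallyClosed.isIntegral_iff.1 h'
  obtain ⟨f, hf⟩ : ∃ f : k[X], aeval x f = (a : LaurentSeries k) := by
    have h0 : (a : LaurentSeries k) ∈ (aeval (R := k) x).range := by
      rw [← Algebra.adjoin_singleton_eq_range_aeval]
      exact a.2
    exact h0
  exact ⟨f, hf.trans (congrArg Subtype.val ha)⟩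

/-! ### Theorem P (abstract core) -/

theorem natCast_ne_zero_of_ne_zero {p : ℕ} (hpk : (p : k) ≠ 0) : (p : LaurentSeries k) ≠ 0 := by
  have h : (p : LaurentSeries k) = HahnSeries.C (p : k) := by rw [map_natCast]
  rw [h]
  exact fun h0 => hpk (HahnSeries.C_injective (h0.trans (map_zero _).symm))

/-- **Theorem P, abstract core.**  In `K = k((q))`, `V = (q ↦ q^p)` with `p ≥ 2` invertible in `k`:
if `x` has a simple pole, `(θ x)² = Q x (x - c)`, `x D = Q³`, `ord D = 1` and `V D / D` is integral
over `k[x]`, then `V x ∉ k(x)`. -/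
theorem qExpand_notMem_adjoin (p : ℕ) [NeZero p] (hp : 2 ≤ p) (hpk : (p : k) ≠ 0)
    (x Q D : LaurentSeries k) (c : k) (hx : x.order = -1)
    (h1 : theta x ^ 2 = Q * x * (x - HahnSeries.C c)) (h2 : x * D = Q ^ 3) (hD : D.order = 1)
    (h3 : IsIntegral (Algebra.adjoin k {x}) (qExpand k p D / D)) :
    qExpand k p x ∉ IntermediateField.adjoin k {x} := by
  intro hy
  set F := IntermediateField.adjoin k {x} with hF
  set y := qExpand k p x with hydef
  have hxF : x ∈ F := IntermediateField.mem_adjoin_simple_self k x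
  have hcF : (HahnSeries.C c : LaurentSeries k) ∈ F := by
    rw [HahnSeries.C_apply, ← algebraMap_laurentSeries_eq_single]
    exact F.algebraMap_mem c
  have hpF : (p : LaurentSeries k) ∈ F := natCast_mem F p
  have hx0 : x ≠ 0 := ne_zero_of_order_eq_neg_one hx
  have hθ : theta x ≠ 0 := theta_ne_zero_of_order_eq_neg_one hx
  have hxc : x - HahnSeries.C c ≠ 0 := by
    intro h
    have h' : x = HahnSeries.C c := sub_eq_zero.1 h
    rw [h', HahnSeries.order_C] at hx
    exact absurd hx (by norm_num)
  have hy0 : y ≠ 0 := qExpand_ne_zero p hx0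
  have hyc : y - HahnSeries.C c ≠ 0 := by
    have : y - HahnSeries.C c = qExpand k p (x - HahnSeries.C c) := by
      rw [map_sub, qExpand_C]
    rw [this]
    exact qExpand_ne_zero p hxc
  have hQ0 : Q ≠ 0 := by
    rintro rfl
    rw [zero_mul, zero_mul] at h1
    exact hθ (pow_eq_zero_iff two_ne_zero |>.1 h1)
  have hD0 : D ≠ 0 := by
    rintro rfl
    rw [HahnSeries.order_zero] at hD
    exact absurd hD (by norm_num)
  have hp0 : (p : LaurentSeries k) ≠ 0 := natCast_ne_zero_of_ne_zero hpk
  obtain ⟨c', hc', hc'eq⟩ := exists_theta_eq_mul_of_mem_adjoin x hy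
  have e1 : (p : LaurentSeries k) * qExpand k p (theta x) = c' * theta x := by
    rw [← theta_qExpand]
    exact hc'eq
  have e2 : qExpand k p (theta x) ^ 2 = qExpand k p Q * y * (y - HahnSeries.C c) := by
    rw [← map_pow, h1, map_mul, map_mul, map_sub, qExpand_C]
  have e3 : (p : LaurentSeries k) ^ 2 * (qExpand k p Q * y * (y - HahnSeries.C c)) =
      c' ^ 2 * (Q * x * (x - HahnSeries.C c)) := by
    rw [← e2, ← h1, ← mul_pow, ← mul_pow, e1]
  set w : LaurentSeries k := c' ^ 2 * (x * (x - HahnSeries.C c)) /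
    ((p : LaurentSeries k) ^ 2 * (y * (y - HahnSeries.C c))) with hw
  have hwF : w ∈ F := div_mem (mul_mem (pow_mem hc' 2) (mul_mem hxF (sub_mem hxF hcF)))
    (mul_mem (pow_mem hpF 2) (mul_mem hy (sub_mem hy hcF)))
  have hVQ : qExpand k p Q = w * Q := by
    rw [hw, div_mul_eq_mul_div,
      eq_div_iff (mul_ne_zero (pow_ne_zero 2 hp0) (mul_ne_zero hy0 hyc))]
    linear_combination e3
  have hu : qExpand k p D / D = w ^ 3 * x / y := by
    rw [div_eq_div_iff hD0 hy0]
    have e4 : y * qExpand k p D = qExpand k p Q ^ 3 := by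
      rw [← map_mul, h2, map_pow]
    calc qExpand k p D * y = qExpand k p Q ^ 3 := by rw [mul_comm]; exact e4
      _ = w ^ 3 * Q ^ 3 := by rw [hVQ, mul_pow]
      _ = w ^ 3 * x * D := by rw [← h2]; ring
  have huF : qExpand k p D / D ∈ F := by
    rw [hu]
    exact div_mem (mul_mem (pow_mem hwF 3) hxF) hy
  obtain ⟨f, hf⟩ := exists_aeval_eq_of_isIntegral hx huF h3
  have hVD0 : qExpand k p D ≠ 0 := qExpand_ne_zero p hD0
  have hu0 : qExpand k p D / D ≠ 0 := div_ne_zero hVD0 hD0
  have hf0 : f ≠ 0 := by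
    rintro rfl
    rw [map_zero] at hf
    exact hu0 hf.symm
  have hord1 := order_aeval_le hx hf0
  have hord2 : (qExpand k p D / D).order = (p : ℤ) - 1 := by
    have h4 : (qExpand k p D / D) * D = qExpand k p D := div_mul_cancel₀ _ hD0
    have h' := congrArg HahnSeries.order h4
    rw [HahnSeries.order_mul hu0 hD0, order_qExpand, hD] at h'
    omega
  rw [hf, hord2] at hord1
  have h2p : (2 : ℤ) ≤ p := by exact_mod_cast hp
  omega

end Fermat.Agent.IG.PR.TheoremP1
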