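/-
IG/PR/TransferPoly20 (helper20): transfer of the polynomial inputs `Interface20.P0 p`, `Interface20.P2 p`
(identities in `ℤ((q))`) to an arbitrary field `k`:
* `hPhi_of_P0` : `P0 p → ∃ F : k[Y][X]` monic of degree `p+1` with both vanishing identities over `k`,
* `isIntegral_uq_of_P2` : `P2 p → (p : k) ≠ 0 → IsIntegral k[j] (uq k p)`,
and the order facts `(jqModC k).order = -1`, `(deltaq k).order = 1`, `uq k p = V_p Δ / Δ`.
-/
import Mathlib
import Fermat.Agent.IG.PR.Interface20
import Fermat.Agent.IG.AN.FormalDelta10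

set_option autoImplicit false

noncomputable section

open HahnSeries ModularCurve Polynomial

namespace Fermat.Agent.IG.PR.TransferPoly20

open Fermat.Agent.IG.PR.Interface20 Fermat.Agent.IG.PR.Theta20

section CoeffMapObjects

variable {R S : Type*} [CommRing R] [CommRing S] (f : R →+* S)

theorem map_castRingHom_map (P : PowerSeries ℤ) :
    (P.map (Int.castRingHom R)).map f = P.map (Int.castRingHom S) := by
  rw [← RingHom.comp_apply (PowerSeries.map f) (PowerSeries.map (Int.castRingHom R)),
    ← PowerSeries.map_comp, RingHom.ext_int (f.comp (Int.castRingHom R)) (Int.castRingHom S)]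

theorem coeffMap_E4q : coeffMap f (E4q R) = E4q S := by
  rw [E4q, coeffMap_ofPowerSeries, map_castRingHom_map, E4q]

theorem coeffMap_deltaq : coeffMap f (deltaq R) = deltaq S := by
  rw [deltaq, map_mul, coeffMap_single, map_one, coeffMap_ofPowerSeries, map_castRingHom_map, deltaq]

theorem coeffMap_deltaqInv : coeffMap f (deltaqInv R) = deltaqInv S := by
  rw [deltaqInv, map_mul, coeffMap_single, map_one, coeffMap_ofPowerSeries, map_castRingHom_map,
    deltaqInv]

theorem coeffMap_uq (p : ℕ) [NeZero p] : coeffMap f (uq R p) = uq S p := by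
  rw [uq, map_mul, coeffMap_qExpand, coeffMap_deltaq, coeffMap_deltaqInv, uq]

end CoeffMapObjects

section EvalAt

variable {R : Type*} [CommRing R]

/-- `coeffMap cast ∘ evalAt ℤ y = evalAt R (coeffMap cast y)`. -/
theorem coeffMap_comp_evalAt (y : LaurentSeries ℤ) :
    (coeffMap (Int.castRingHom R)).comp (evalAt ℤ y) =
      evalAt R (coeffMap (Int.castRingHom R) y) := by
  refine Polynomial.ringHom_ext (fun c => ?_) ?_
  · simp [evalAt]
  · simp [evalAt]

variable (k : Type*) [Field k]

/-- `evalAt k y = aeval y ∘ map cast` on `ℤ[Y]`. -/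
theorem evalAt_eq_aeval_comp (y : LaurentSeries k) :
    evalAt k y = ((aeval y : k[X] →ₐ[k] LaurentSeries k).toRingHom).comp
      (Polynomial.mapRingHom (Int.castRingHom k)) := by
  refine Polynomial.ringHom_ext (fun c => ?_) ?_
  · simp [evalAt]
  · simp [evalAt]

/-- Transfer of a two-variable polynomial identity from `ℤ((q))` to `k((q))`. -/
theorem eval₂_transfer (Φ : Polynomial (Polynomial ℤ)) (a b : LaurentSeries ℤ)
    (h : Φ.eval₂ (evalAt ℤ a) b = 0) :
    (Φ.map (Polynomial.mapRingHom (Int.castRingHom k))).eval₂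
      ((aeval (coeffMap (Int.castRingHom k) a) : k[X] →ₐ[k] LaurentSeries k).toRingHom)
      (coeffMap (Int.castRingHom k) b) = 0 := by
  rw [Polynomial.eval₂_map, ← evalAt_eq_aeval_comp, ← coeffMap_comp_evalAt,
    ← Polynomial.hom_eval₂, h, map_zero]

end EvalAt

section P0

variable (k : Type*) [Field k]

/-- `P0 p` over an arbitrary field (shape consumed by `IrredP25`). -/
theorem hPhi_of_P0 (p : ℕ) [NeZero p] (h : P0 p) :
    ∃ F : Polynomial (Polynomial k), F.Monic ∧ F.natDegree = p + 1 ∧
      F.eval₂ ((aeval (jqModC k) : k[X] →ₐ[k] LaurentSeries k).toRingHom)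
        (qExpand k p (jqModC k)) = 0 ∧
      F.eval₂ ((aeval (qExpand k p (jqModC k)) : k[X] →ₐ[k] LaurentSeries k).toRingHom)
        (jqModC k) = 0 := by
  obtain ⟨Φ, hmonic, hdeg, h1, h2⟩ := h
  refine ⟨Φ.map (Polynomial.mapRingHom (Int.castRingHom k)), hmonic.map _, ?_, ?_, ?_⟩
  · rw [hmonic.natDegree_map, hdeg]
  · have := eval₂_transfer k Φ _ _ h1
    rwa [coeffMap_jqModC, coeffMap_qExpand, coeffMap_jqModC] at this
  · have := eval₂_transfer k Φ _ _ h2
    rwa [coeffMap_qExpand, coeffMap_jqModC] at this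

end P0

section P2

variable (k : Type*) [Field k]

/-- `P2 p` over a field in which `p` is invertible: `u` is integral over `k[j]`. -/
theorem isIntegral_uq_of_P2 (p : ℕ) [NeZero p] (h : P2 p) (hpk : (p : k) ≠ 0) :
    IsIntegral (Algebra.adjoin k {jqModC k}) (uq k p) := by
  obtain ⟨m, P, hlead, hroot⟩ := h
  set x := jqModC k with hx
  -- the polynomial over `k[Y][X]`
  set Pk : Polynomial (Polynomial k) := P.map (Polynomial.mapRingHom (Int.castRingHom k)) with hPk
  have hroot' : Pk.eval₂ ((aeval x : k[X] →ₐ[k] LaurentSeries k).toRingHom) (uq k p) = 0 := by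
    have := eval₂_transfer k P _ _ hroot
    rwa [coeffMap_jqModC, coeffMap_uq] at this
  -- push to the subalgebra `k[x]`
  let A := Algebra.adjoin k ({x} : Set (LaurentSeries k))
  let φ : k[X] →+* A :=
    ((aeval (⟨x, Algebra.subset_adjoin (Set.mem_singleton x)⟩ : A) : k[X] →ₐ[k] A)).toRingHom
  have hφ : (algebraMap A (LaurentSeries k)).comp φ =
      (aeval x : k[X] →ₐ[k] LaurentSeries k).toRingHom := by
    refine Polynomial.ringHom_ext (fun c => ?_) ?_
    · simp [φ]
    · simp [φ]
  set Q : Polynomial A := Pk.map φ with hQ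
  have hQroot : Polynomial.eval₂ (algebraMap A (LaurentSeries k)) (uq k p) Q = 0 := by
    rw [hQ, Polynomial.eval₂_map, hφ]
    exact hroot'
  -- leading coefficient of `Q` is the unit `(p : k)^m`
  have hunit : (p : k) ^ m ≠ 0 := pow_ne_zero m hpk
  have hPkcoeff : Pk.coeff P.natDegree = Polynomial.C ((p : k) ^ m) := by
    rw [hPk, Polynomial.coeff_map, Polynomial.coeff_natDegree, hlead]
    simp
  have hPkdeg : Pk.natDegree ≤ P.natDegree := Polynomial.natDegree_map_le
  have hQcoeff : Q.coeff P.natDegree = algebraMap k A ((p : k) ^ m) := by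
    rw [hQ, Polynomial.coeff_map, hPkcoeff]
    simp [φ]
  have hQdeg : Q.natDegree ≤ P.natDegree := Polynomial.natDegree_map_le.trans hPkdeg
  -- scale to a monic polynomial
  set c : A := algebraMap k A (((p : k) ^ m)⁻¹) with hc
  have hcmul : c * algebraMap k A ((p : k) ^ m) = 1 := by
    rw [hc, ← map_mul, inv_mul_cancel₀ hunit, map_one]
  refine ⟨Polynomial.C c * Q, ?_, ?_⟩
  · -- monic
    have hdeg : (Polynomial.C c * Q).natDegree ≤ P.natDegree :=
      (Polynomial.natDegree_C_mul_le c Q).trans hQdeg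
    have hcoeff : (Polynomial.C c * Q).coeff P.natDegree = 1 := by
      rw [Polynomial.coeff_C_mul, hQcoeff, hcmul]
    exact Polynomial.monic_of_natDegree_le_of_coeff_eq_one _ hdeg hcoeff
  · rw [Polynomial.eval₂_mul, hQroot, mul_zero]

end P2

section Orders

variable (k : Type*) [Field k]

theorem order_eq_of_coeff {x : LaurentSeries k} {n : ℤ} (hn : x.coeff n ≠ 0)
    (hlt : ∀ m, m < n → x.coeff m = 0) : x.order = n := by
  have hne : x ≠ 0 := HahnSeries.ne_zero_of_coeff_ne_zero hn
  apply le_antisymm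
  · exact HahnSeries.order_le_of_coeff_ne_zero hn
  · by_contra h
    rw [not_le] at h
    exact (HahnSeries.coeff_order_eq_zero.not.mpr hne) (hlt _ h)

theorem order_jqModC : (jqModC k).order = -1 :=
  order_eq_of_coeff k (by rw [coeff_jqModC_neg_one]; exact one_ne_zero)
    (fun _ hm => coeff_jqModC_of_lt k hm)

theorem order_ofPowerSeries_of_constantCoeff_eq_one (P : PowerSeries k)
    (hP : PowerSeries.constantCoeff P = 1) : (HahnSeries.ofPowerSeries ℤ k P).order = 0 := by
  refine order_eq_of_coeff k ?_ (fun m hm => ofPowerSeries_coeff_of_neg P hm)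
  have : (HahnSeries.ofPowerSeries ℤ k P).coeff ((0 : ℕ) : ℤ) = 1 := by
    rw [HahnSeries.ofPowerSeries_apply_coeff, PowerSeries.coeff_zero_eq_constantCoeff, hP]
  rw [Nat.cast_zero] at this
  rw [this]
  exact one_ne_zero

theorem constantCoeff_map_cast (P : PowerSeries ℤ) (hP : PowerSeries.constantCoeff P = 1) :
    PowerSeries.constantCoeff (P.map (Int.castRingHom k)) = 1 := by
  rw [← PowerSeries.coeff_zero_eq_constantCoeff, PowerSeries.coeff_map,
    PowerSeries.coeff_zero_eq_constantCoeff, hP]
  simp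

theorem order_deltaq : (deltaq k).order = 1 := by
  have h1 : (HahnSeries.single (1 : ℤ) (1 : k)) ≠ 0 := HahnSeries.single_ne_zero one_ne_zero
  have h2o := order_ofPowerSeries_of_constantCoeff_eq_one k _
    (constantCoeff_map_cast k _ constantCoeff_dedekindEtaUnit)
  have h2 : HahnSeries.ofPowerSeries ℤ k (dedekindEtaUnit.map (Int.castRingHom k)) ≠ 0 := by
    intro h
    have hc : (HahnSeries.ofPowerSeries ℤ k (dedekindEtaUnit.map (Int.castRingHom k))).coeff
        ((0 : ℕ) : ℤ) = 1 := by
      rw [HahnSeries.ofPowerSeries_apply_coeff, PowerSeries.coeff_zero_eq_constantCoeff,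
        constantCoeff_map_cast k _ constantCoeff_dedekindEtaUnit]
    rw [h] at hc
    simp at hc
  rw [deltaq, HahnSeries.order_mul h1 h2, HahnSeries.order_single one_ne_zero, h2o, add_zero]

theorem deltaq_ne_zero : deltaq k ≠ 0 := by
  intro h
  have := order_deltaq k
  rw [h, HahnSeries.order_zero] at this
  exact absurd this (by norm_num)

end Orders

section Unit

variable (k : Type*) [Field k]

theorem uq_eq_div (p : ℕ) [NeZero p] : uq k p = qExpand k p (deltaq k) / deltaq k := by
  rw [uq, eq_div_iff (deltaq_ne_zero k), mul_assoc, mul_comm (deltaqInv k), Fermat.Agent.IG.AN.FormalDelta10.deltaq_mul_deltaqInv,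
    mul_one]

/-- `P1` transferred to an arbitrary field, in the shape of `TheoremP1.qExpand_notMem_adjoin`. -/
theorem theta_sq_of_P1 (h : P1) :
    theta (jqModC k) ^ 2 = E4q k * jqModC k * (jqModC k - HahnSeries.C (1728 : k)) := by
  have h' := congrArg (coeffMap (Int.castRingHom k)) h
  rw [map_pow, coeffMap_theta, coeffMap_jqModC, map_mul, map_mul, coeffMap_E4q, coeffMap_jqModC,
    map_sub, coeffMap_jqModC] at h'
  rw [h']
  congr 2
  rw [map_ofNat]
  rfl

end Unit

end Fermat.Agent.IG.PR.TransferPoly20
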