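/-
IG/PR/Main20 (helper20, chapter lead IG/PR): assembly of chapter IG/PR.

* `relfinrank_eq_psi` : (IRR_N) with equality, in `relfinrank` form, for every field `k` in which the
  primes dividing `N` are invertible, given the upper bounds at all `M ∣ N`,
* `irr_of_ub`         : the hand-over to IG/VAL: `UBDef8.UB ℓ M` for all `M ∣ N` ⟹ `ValInterface8.Irr ℓ N`.

* `theoremP`         : `P1 → P2 p → TheoremP p`          (blueprint §2, Theorem P)
* `primeLevel`       : `P0 p → P1 → P2 p →` both relative degrees at prime level are `p + 1`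
* `primeLevelDegree` : `P0 p → P1 → P2 p → PrimeLevelDegree p`
-/
import Mathlib
import Fermat.Agent.IG.PR.Interface20
import Fermat.Agent.IG.PR.TheoremP1
import Fermat.Agent.IG.PR.RamDeg25
import Fermat.Agent.IG.PR.IrredP25
import Fermat.Agent.IG.PR.TransferPoly20
import Fermat.Agent.IG.PR.FamilyForm20
import Fermat.Agent.IG.PR.LevelTowerBridge1
import Fermat.Agent.IG.VAL.UBDef8

set_option autoImplicit false

noncomputable section

open HahnSeries ModularCurve Polynomial IntermediateField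

namespace Fermat.Agent.IG.PR.Main20

open Fermat.Agent.IG.PR.Interface20 Fermat.Agent.IG.PR.Theta20 Fermat.Agent.IG.PR.TransferPoly20

/-- **Theorem P**: `j(q^p) ∉ k(j(q))` whenever `p ≥ 2` is invertible in the field `k`. -/
theorem theoremP (p : ℕ) [NeZero p] (hp : 2 ≤ p) (hP1 : P1) (hP2 : P2 p) : TheoremP p := by
  intro k _ hpk
  have h3 := isIntegral_uq_of_P2 k p hP2 hpk
  rw [uq_eq_div] at h3
  exact TheoremP1.qExpand_notMem_adjoin p hp hpk (jqModC k) (E4q k) (deltaq k) 1728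
    (order_jqModC k) (theta_sq_of_P1 k hP1) (Fermat.Agent.IG.AN.FormalDelta10.jqModC_mul_deltaq k)
    (order_deltaq k) h3

/-- Prime level: both relative degrees are `p + 1` (for every field `k` in which `p` is invertible). -/
theorem primeLevel (p : ℕ) [NeZero p] (hp : 2 ≤ p) (hP0 : P0 p) (hP1 : P1) (hP2 : P2 p)
    (k : Type) [Field k] (hpk : (p : k) ≠ 0) :
    ((minpoly k⟮jqModC k⟯ (qExpand k p (jqModC k))).natDegree = p + 1 ∧
      relfinrank k⟮jqModC k⟯ (k⟮jqModC k⟯ ⊔ k⟮qExpand k p (jqModC k)⟯) = p + 1) ∧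
    ((minpoly k⟮qExpand k p (jqModC k)⟯ (jqModC k)).natDegree = p + 1 ∧
      relfinrank k⟮qExpand k p (jqModC k)⟯ (k⟮jqModC k⟯ ⊔ k⟮qExpand k p (jqModC k)⟯) = p + 1) := by
  obtain ⟨F, hF, hdeg, h1, h2⟩ := hPhi_of_P0 k p hP0
  have hx := order_jqModC k
  have hC : ∀ g : (LaurentSeries k)[X], g ≠ 0 → g.natDegree < p →
      (g.map ((qExpandAlgHomC k p : LaurentSeries k →ₐ[k] LaurentSeries k) :
        LaurentSeries k →+* LaurentSeries k)).eval (jqModC k) ≠ 0 := fun g hg hlt =>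
    RamDeg25.eval_map_qExpand_ne_zero_of_order hx g hg hlt
  have hP : (qExpandAlgHomC k p) (jqModC k) ∉ k⟮jqModC k⟯ := theoremP p hp hP1 hP2 k hpk
  exact ⟨IrredP25.relfinrank_left (V := qExpandAlgHomC k p) hp hF hdeg h1 h2 hC hP,
    IrredP25.relfinrank_right (V := qExpandAlgHomC k p) hp hF hdeg h1 h2 hC hP⟩

/-- `PrimeLevelDegree p` (Interface20 output). -/
theorem primeLevelDegree (p : ℕ) [NeZero p] (hp : 2 ≤ p) (hP0 : P0 p) (hP1 : P1) (hP2 : P2 p) :
    PrimeLevelDegree p := fun k _ hpk => (primeLevel p hp hP0 hP1 hP2 k hpk).1.1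

/-- **(IRR_N) with equality**, `relfinrank` form, over any field `k` in which all primes dividing `N`
are invertible, given the upper bounds at all divisors of `N`. -/
theorem relfinrank_eq_psi (k : Type) [Field k] (N : ℕ) [NeZero N]
    (hk : ∀ r, r.Prime → r ∣ N → (r : k) ≠ 0)
    (hP1 : P1) (hP0 : ∀ r, r.Prime → r ∣ N → ∀ _ : NeZero r, P0 r)
    (hP2 : ∀ r, r.Prime → r ∣ N → ∀ _ : NeZero r, P2 r)
    (hub : ∀ M, M ∣ N → ∀ [NeZero M],
      relfinrank k⟮jqModC k⟯ (modularFunctionFieldFullC k M) ≤ dedekindPsi M) :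
    relfinrank k⟮jqModC k⟯ (modularFunctionFieldFullC k N) = dedekindPsi N := by
  refine LevelTowerBridge1.relfinrank_full_eq_of_inputs (order_jqModC k) N ?_ ?_ hub
  · intro r hr hrN inst
    exact hPhi_of_P0 k r (hP0 r hr hrN inst)
  · intro r hr hrN inst
    exact theoremP r hr.two_le hP1 (hP2 r hr hrN inst) k (hk r hr hrN)

open Fermat.Agent.IG.VAL.ValInterface8 in
/-- **Hand-over to IG/VAL**: the lower bound `(IRR_N)` in VAL's family form, from VAL's upper bounds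
`UBDef8.UB ℓ M` at all `M ∣ N` and the AN inputs `P0`, `P1`, `P2` at the primes dividing `N`. -/
theorem irr_of_ub (ℓ N : ℕ) [Fact ℓ.Prime] [NeZero N] (hℓN : ¬ ℓ ∣ N) (hP1 : P1)
    (hP0 : ∀ r, r.Prime → r ∣ N → ∀ _ : NeZero r, P0 r)
    (hP2 : ∀ r, r.Prime → r ∣ N → ∀ _ : NeZero r, P2 r)
    (hub : ∀ M, M ∣ N → ∀ _ : NeZero M, Fermat.Agent.IG.VAL.UBDef8.UB ℓ M) :
    Irr ℓ N := by
  have hk : ∀ r, r.Prime → r ∣ N → ((r : ℕ) : ZMod ℓ) ≠ 0 := by
    intro r hr hrN h0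
    rw [ZMod.natCast_eq_zero_iff] at h0
    have : ℓ = r := (Nat.prime_dvd_prime_iff_eq (Fact.out : ℓ.Prime) hr).mp h0
    exact hℓN (this ▸ hrN)
  have hle : ∀ M : ℕ, (ZMod ℓ)⟮jqModC (ZMod ℓ)⟯ ≤ modularFunctionFieldFullC (ZMod ℓ) M := by
    intro M
    rw [adjoin_simple_le_iff]
    exact jqModC_mem_full (ZMod ℓ) M
  have hub' : ∀ M, M ∣ N → ∀ [NeZero M],
      relfinrank (ZMod ℓ)⟮jqModC (ZMod ℓ)⟯ (modularFunctionFieldFullC (ZMod ℓ) M) ≤
        dedekindPsi M := by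
    intro M hM inst
    exact FamilyForm20.relfinrank_le_of_family_bound (hle M) _ (hub M hM inst)
  have heq := relfinrank_eq_psi (ZMod ℓ) N hk hP1 hP0 hP2 hub'
  exact FamilyForm20.exists_family_of_le_relfinrank (hle N) _ heq.ge

/-- The same with equality, `relfinrank` form, for `k = ZMod ℓ`. -/
theorem relfinrank_eq_psi_zmod (ℓ N : ℕ) [Fact ℓ.Prime] [NeZero N] (hℓN : ¬ ℓ ∣ N) (hP1 : P1)
    (hP0 : ∀ r, r.Prime → r ∣ N → ∀ _ : NeZero r, P0 r)
    (hP2 : ∀ r, r.Prime → r ∣ N → ∀ _ : NeZero r, P2 r)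
    (hub : ∀ M, M ∣ N → ∀ _ : NeZero M, Fermat.Agent.IG.VAL.UBDef8.UB ℓ M) :
    relfinrank (ZMod ℓ)⟮jqModC (ZMod ℓ)⟯ (modularFunctionFieldFullC (ZMod ℓ) N) = dedekindPsi N := by
  have hk : ∀ r, r.Prime → r ∣ N → ((r : ℕ) : ZMod ℓ) ≠ 0 := by
    intro r hr hrN h0
    rw [ZMod.natCast_eq_zero_iff] at h0
    have : ℓ = r := (Nat.prime_dvd_prime_iff_eq (Fact.out : ℓ.Prime) hr).mp h0
    exact hℓN (this ▸ hrN)
  have hle : ∀ M : ℕ, (ZMod ℓ)⟮jqModC (ZMod ℓ)⟯ ≤ modularFunctionFieldFullC (ZMod ℓ) M := by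
    intro M
    rw [adjoin_simple_le_iff]
    exact jqModC_mem_full (ZMod ℓ) M
  refine relfinrank_eq_psi (ZMod ℓ) N hk hP1 hP0 hP2 ?_
  intro M hM inst
  exact FamilyForm20.relfinrank_le_of_family_bound (hle M) _ (hub M hM inst)

end Fermat.Agent.IG.PR.Main20
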