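import Mathlib
import Fermat.Prelude.Def_ModularCurve_X0ModL
import Fermat.Agent.IG.PR.LxDef20

/-!
# IG/PR/LevelFinite10 (helper10): finiteness of the level tower (leaf (LT-b) of `LevelTower1`)

`k` a field, `x : LaurentSeries k`, `x_d := qExpand k d x`, `Lx x N = k(x_d : d ∣ N)`.

If for every prime `r ∣ N` the field `k(x, x_r)` is finite over `k(x)` and over `k(x_r)`
(hypothesis `hfin`, in `relfinrank ≠ 0` form), then `Lx x N` is finite over `k(x_d)` for every
`d ∣ N` (`relfinrank_ne_zero`), every `x_e` (`e ∣ N`) is integral over `k(x_d)`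
(`isIntegral_qExpand`) and every element of `Lx x N` is integral over any intermediate field
containing some `x_d` (`isIntegral_of_mem_Lx`).

Route: the relation `AlgRel a b := IsIntegral k⟮a⟯ b ∧ IsIntegral k⟮b⟯ a` is an equivalence relation,
stable under `k`-algebra endomorphisms (`V_a = qExpandAlgHomC k a`); chain along the prime factors.
-/

set_option autoImplicit false

noncomputable section

open ModularCurve IntermediateField

namespace Fermat.Agent.IG.PR.LevelFinite10

open Fermat.Agent.IG.PR.LxDef20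

section General

variable {k E : Type*} [Field k] [Field E] [Algebra k E]

/-- `a` and `b` are algebraic over each other's simple extension of `k`. -/
def AlgRel (k : Type*) {E : Type*} [Field k] [Field E] [Algebra k E] (a b : E) : Prop :=
  IsIntegral k⟮a⟯ b ∧ IsIntegral k⟮b⟯ a

theorem isIntegral_self (a : E) : IsIntegral k⟮a⟯ a := by
  have := isIntegral_algebraMap (R := k⟮a⟯) (A := E) (x := ⟨a, mem_adjoin_simple_self k a⟩)
  simpa using this

theorem AlgRel.refl (a : E) : AlgRel k a a := ⟨isIntegral_self a, isIntegral_self a⟩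

theorem AlgRel.symm {a b : E} (h : AlgRel k a b) : AlgRel k b a := ⟨h.2, h.1⟩

/-- Enlarging the base field preserves integrality. -/
theorem isIntegral_of_le {A B : IntermediateField k E} (h : A ≤ B) {c : E} (hc : IsIntegral A c) :
    IsIntegral B c := by
  have := hc.map_of_comp_eq (IntermediateField.inclusion h).toRingHom (RingHom.id E)
    (by ext y; rfl)
  simpa using this

/-- Integrality over a bigger simple extension, from a smaller one. -/
theorem isIntegral_trans_simple {a b c : E} (hb : IsIntegral k⟮a⟯ b) (hc : IsIntegral k⟮b⟯ c) :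
    IsIntegral k⟮a⟯ c := by
  -- the tower `k⟮a⟯ ⊆ k⟮a⟯⟮b⟯ ⊆ E`
  have : FiniteDimensional k⟮a⟯ (k⟮a⟯)⟮b⟯ := adjoin.finiteDimensional hb
  have : Algebra.IsIntegral k⟮a⟯ (k⟮a⟯)⟮b⟯ := Algebra.IsIntegral.of_finite _ _
  have hle : k⟮b⟯ ≤ ((k⟮a⟯)⟮b⟯).restrictScalars k := by
    rw [adjoin_simple_le_iff]
    exact mem_adjoin_simple_self _ b
  let φ : k⟮b⟯ →+* (k⟮a⟯)⟮b⟯ :=
    { toFun := fun y => ⟨y.1, hle y.2⟩
      map_one' := rfl
      map_mul' := fun _ _ => rfl
      map_zero' := rfl
      map_add' := fun _ _ => rfl }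
  have hc' : IsIntegral (k⟮a⟯)⟮b⟯ c := by
    have := hc.map_of_comp_eq φ (RingHom.id E) (by ext y; rfl)
    simpa using this
  exact isIntegral_trans c hc'

theorem AlgRel.trans {a b c : E} (h1 : AlgRel k a b) (h2 : AlgRel k b c) : AlgRel k a c :=
  ⟨isIntegral_trans_simple h1.1 h2.1, isIntegral_trans_simple h2.2 h1.2⟩

/-- Transport of integrality along a `k`-algebra homomorphism. -/
theorem isIntegral_map_simple (f : E →ₐ[k] E) {a b : E} (hb : IsIntegral k⟮a⟯ b) :
    IsIntegral k⟮f a⟯ (f b) := by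
  have hmem : ∀ y : k⟮a⟯, f y.1 ∈ k⟮f a⟯ := by
    intro y
    have h1 : f y.1 ∈ (k⟮a⟯).map f := (IntermediateField.mem_map _).mpr ⟨y.1, y.2, rfl⟩
    rwa [adjoin_map, Set.image_singleton] at h1
  let φ : k⟮a⟯ →+* k⟮f a⟯ :=
    { toFun := fun y => ⟨f y.1, hmem y⟩
      map_one' := Subtype.ext (map_one f)
      map_mul' := fun y z => Subtype.ext (map_mul f y.1 z.1)
      map_zero' := Subtype.ext (map_zero f)
      map_add' := fun y z => Subtype.ext (map_add f y.1 z.1) }
  exact hb.map_of_comp_eq φ f.toRingHom (by ext y; rfl)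

theorem AlgRel.map (f : E →ₐ[k] E) {a b : E} (h : AlgRel k a b) : AlgRel k (f a) (f b) :=
  ⟨isIntegral_map_simple f h.1, isIntegral_map_simple f h.2⟩

/-- From `relfinrank k⟮a⟯ (adjoin k {a, b}) ≠ 0` to integrality of `b` over `k⟮a⟯`. -/
theorem isIntegral_of_relfinrank_ne_zero {A B : IntermediateField k E} (h : A ≤ B)
    (hfin : relfinrank A B ≠ 0) {b : E} (hb : b ∈ B) : IsIntegral A b := by
  rw [relfinrank_eq_finrank_of_le h] at hfin
  have : Module.Finite A (extendScalars h) :=
    Module.finite_of_finrank_pos (Nat.pos_of_ne_zero hfin)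
  have hb' : IsIntegral A (⟨b, (mem_extendScalars h).mpr hb⟩ : extendScalars h) :=
    IsIntegral.of_finite A _
  have := hb'.map (extendScalars h).val
  simpa using this

end General

section Level

variable {k : Type*} [Field k]

/-- The hypothesis of the leaf: for every prime `r ∣ N`, `k(x, x_r)` is finite over `k(x)` and over
`k(x_r)`. -/
def PrimeFinite (x : LaurentSeries k) (N : ℕ) : Prop :=
  ∀ r : ℕ, r.Prime → r ∣ N → ∀ _ : NeZero r,
    relfinrank k⟮x⟯ (IntermediateField.adjoin k {x, qExpand k r x}) ≠ 0 ∧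
      relfinrank k⟮qExpand k r x⟯ (IntermediateField.adjoin k {x, qExpand k r x}) ≠ 0

variable {x : LaurentSeries k} {N : ℕ}

theorem algRel_prime (hfin : PrimeFinite x N) {r : ℕ} (hr : r.Prime) (hrN : r ∣ N) [NeZero r] :
    AlgRel k x (qExpand k r x) := by
  obtain ⟨h1, h2⟩ := hfin r hr hrN ‹_›
  have hx : x ∈ IntermediateField.adjoin k {x, qExpand k r x} :=
    subset_adjoin k _ (Set.mem_insert _ _)
  have hxr : qExpand k r x ∈ IntermediateField.adjoin k {x, qExpand k r x} :=
    subset_adjoin k _ (Set.mem_insert_of_mem _ rfl)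
  exact ⟨isIntegral_of_relfinrank_ne_zero ((adjoin_simple_le_iff).mpr hx) h1 hxr,
    isIntegral_of_relfinrank_ne_zero ((adjoin_simple_le_iff).mpr hxr) h2 hx⟩

/-- `x` and `x_d` are algebraic over each other, for every `d ∣ N`. -/
theorem algRel_self_qExpand (hfin : PrimeFinite x N) :
    ∀ d : ℕ, ∀ _ : NeZero d, d ∣ N → AlgRel k x (qExpand k d x) := by
  intro d
  induction d using Nat.recOnMul with
  | zero => intro h0; exact absurd rfl h0.out
  | one =>
    intro _ _
    rw [qExpand_one_apply]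
    exact AlgRel.refl x
  | prime p hp =>
    intro _ hpN
    exact algRel_prime hfin hp hpN
  | mul a b iha ihb =>
    intro hab habN
    have ha0 : a ≠ 0 := fun h => hab.out (by rw [h, zero_mul])
    have hb0 : b ≠ 0 := fun h => hab.out (by rw [h, mul_zero])
    have : NeZero a := ⟨ha0⟩
    have : NeZero b := ⟨hb0⟩
    have h1 : AlgRel k x (qExpand k a x) := iha ‹_› ((Dvd.intro _ rfl).trans habN)
    have h2 : AlgRel k x (qExpand k b x) := ihb ‹_› ((Dvd.intro_left _ rfl).trans habN)
    have h3 := h2.map (qExpandAlgHomC k a)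
    rw [qExpandAlgHomC_apply, qExpandAlgHomC_apply, qExpand_qExpand] at h3
    exact h1.trans h3

/-- `x_d` and `x_e` are algebraic over each other, for all `d, e ∣ N`. -/
theorem algRel_qExpand (hfin : PrimeFinite x N) {d e : ℕ} [NeZero d] [NeZero e] (hd : d ∣ N)
    (he : e ∣ N) : AlgRel k (qExpand k d x) (qExpand k e x) :=
  (algRel_self_qExpand hfin d ‹_› hd).symm.trans (algRel_self_qExpand hfin e ‹_› he)

/-- Every `x_e`, `e ∣ N`, is integral over `k(x_d)`, `d ∣ N`. -/
theorem isIntegral_qExpand (hfin : PrimeFinite x N) {d e : ℕ} [NeZero d] [NeZero e] (hd : d ∣ N)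
    (he : e ∣ N) : IsIntegral k⟮qExpand k d x⟯ (qExpand k e x) :=
  (algRel_qExpand hfin hd he).1

theorem finite_gens (x : LaurentSeries k) (N : ℕ) [NeZero N] : (gens x N).Finite := by
  classical
  refine ((N.divisors : Set ℕ).toFinite.image
    (fun d => if h : d = 0 then x else (have : NeZero d := ⟨h⟩; qExpand k d x))).subset ?_
  rintro y ⟨d, hd, hdN, rfl⟩
  refine ⟨d, ?_, ?_⟩
  · simpa using Nat.mem_divisors.mpr ⟨hdN, NeZero.ne N⟩
  · simp [hd.out]

theorem simple_le_Lx (x : LaurentSeries k) {d N : ℕ} [NeZero d] (hd : d ∣ N) :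
    k⟮qExpand k d x⟯ ≤ Lx x N :=
  (adjoin_simple_le_iff).mpr (qExpand_mem_Lx x hd)

/-- `Lx x N` is finite-dimensional over `k(x_d)`, `d ∣ N`. -/
theorem finiteDimensional_Lx [NeZero N] (hfin : PrimeFinite x N) {d : ℕ} [NeZero d] (hd : d ∣ N) :
    FiniteDimensional k⟮qExpand k d x⟯ (extendScalars (simple_le_Lx x hd)) := by
  have h : k⟮qExpand k d x⟯ ≤ IntermediateField.adjoin k (gens x N) := simple_le_Lx x hd
  have heq : extendScalars (simple_le_Lx x hd) =
      IntermediateField.adjoin k⟮qExpand k d x⟯ (gens x N) := extendScalars_adjoin h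
  rw [heq]
  have : Finite (gens x N) := (finite_gens x N).to_subtype
  refine finiteDimensional_adjoin ?_
  rintro y ⟨e, he, heN, rfl⟩
  exact isIntegral_qExpand hfin hd heN

/-- **(LT-b)** `Lx x N` has nonzero (= finite) relative degree over every `k(x_d)`, `d ∣ N`. -/
theorem relfinrank_ne_zero [NeZero N] (hfin : PrimeFinite x N) :
    ∀ d : ℕ, d ∣ N → ∀ _ : NeZero d, relfinrank k⟮qExpand k d x⟯ (Lx x N) ≠ 0 := by
  intro d hd _
  rw [relfinrank_eq_finrank_of_le (simple_le_Lx x hd)]
  have := finiteDimensional_Lx hfin hd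
  exact (Module.finrank_pos).ne'

/-- In particular `Lx x N` is finite over `k(x)`. -/
theorem relfinrank_self_ne_zero [NeZero N] (hfin : PrimeFinite x N) :
    relfinrank k⟮x⟯ (Lx x N) ≠ 0 := by
  have := relfinrank_ne_zero hfin 1 (one_dvd N) ⟨one_ne_zero⟩
  rwa [qExpand_one_apply] at this

/-- Every element of `Lx x N` is integral over any intermediate field containing some `x_d`,
`d ∣ N`. -/
theorem isIntegral_of_mem_Lx [NeZero N] (hfin : PrimeFinite x N) {d : ℕ} [NeZero d] (hd : d ∣ N)
    (F : IntermediateField k (LaurentSeries k)) (hF : qExpand k d x ∈ F) {y : LaurentSeries k}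
    (hy : y ∈ Lx x N) : IsIntegral F y :=
  isIntegral_of_le ((adjoin_simple_le_iff).mpr hF)
    (isIntegral_of_relfinrank_ne_zero (simple_le_Lx x hd) (relfinrank_ne_zero hfin d hd ‹_›) hy)

theorem isAlgebraic_of_mem_Lx [NeZero N] (hfin : PrimeFinite x N) {d : ℕ} [NeZero d] (hd : d ∣ N)
    (F : IntermediateField k (LaurentSeries k)) (hF : qExpand k d x ∈ F) {y : LaurentSeries k}
    (hy : y ∈ Lx x N) : IsAlgebraic F y :=
  (isIntegral_of_mem_Lx hfin hd F hF hy).isAlgebraic

end Level

end Fermat.Agent.IG.PR.LevelFinite10
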