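/-
Program G (S28, Igusa) / chapter IG/PR / helper25.

Abstract level induction inputs (counting version of blueprint par.3).

Setting: a field extension `K / k`, a multiplicative system of `k`-algebra endomorphisms
`V d : K → K` (`V 1 = id`, `V m ∘ V n = V (m n)`), an element `x : K`,
`L M := k(V d x : d ∣ M)`, `deg M := [L M : k(x)]` (as `IntermediateField.relfinrank`).
For every prime `p ∣ N` we assume:
  (hΦ) a monic `F ∈ k[Y][X]` of `X`-degree `p + 1` with `F(V p x ; x) = 0 = F(x ; V p x)`,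
  (hC) `x` satisfies no nonzero relation of degree `< p` over `V p (K)`,
  (hP) `V p x ∉ k(x)`.
Outputs (exactly the hypotheses of `Counting20.psi_le_deg`):
  `deg_one`  : `deg 1 = 1`,
  `deg_prime`: `p + 1 ≤ deg p`,
  `deg_step` : `∃ a, p ≤ a ∧ deg (p * M) = a * deg M` whenever `p * M ∣ N`.
-/
import Mathlib
import Fermat.Agent.IG.PR.IrredP25

set_option autoImplicit false

noncomputable section

namespace Fermat.Agent.IG.PR.LevelInd25

open Polynomial IntermediateField Fermat.Agent.IG.PR.IrredP25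

variable {k K : Type*} [Field k] [Field K] [Algebra k K]

section Integral

/-- Change of base field for integrality: a bigger subfield. -/
theorem isIntegral_of_subset {A : IntermediateField k K} {k' : Type*} [Field k'] [Algebra k' K]
    {B : IntermediateField k' K} (h : ∀ z ∈ A, z ∈ B) {c : K} (hc : IsIntegral A c) :
    IsIntegral B c := by
  obtain ⟨q, hq, hqc⟩ := hc
  let φ : A →+* B :=
    { toFun := fun z => ⟨z.1, h z.1 z.2⟩
      map_one' := rfl
      map_mul' := fun _ _ => rfl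
      map_zero' := rfl
      map_add' := fun _ _ => rfl }
  refine ⟨q.map φ, hq.map φ, ?_⟩
  rw [eval₂_map]
  exact hqc

/-- Transitivity of integrality along simple extensions. -/
theorem isIntegral_trans_simple {a b c : K} (hc : IsIntegral k⟮b⟯ c) (hb : IsIntegral k⟮a⟯ b) :
    IsIntegral k⟮a⟯ c := by
  have : Algebra.IsAlgebraic k⟮a⟯ (k⟮a⟯⟮b⟯) := isAlgebraic_adjoin_simple hb
  have : Algebra.IsIntegral k⟮a⟯ (k⟮a⟯⟮b⟯) := Algebra.IsAlgebraic.isIntegral
  have hcB : IsIntegral (k⟮a⟯⟮b⟯) c := by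
    refine isIntegral_of_subset (fun z hz => ?_) hc
    have hle : k⟮b⟯ ≤ (k⟮a⟯⟮b⟯).restrictScalars k := by
      rw [adjoin_le_iff]
      rintro _ rfl
      exact mem_adjoin_simple_self _ _
    exact hle hz
  exact isIntegral_trans c hcB

theorem isIntegral_self (a : K) : IsIntegral k⟮a⟯ a :=
  (isIntegral_algebraMap (R := k⟮a⟯) (A := K) (x := AdjoinSimple.gen k a))

end Integral

section System

variable (V : ℕ → K →ₐ[k] K) (x : K)

/-- `L M = k(V d x : d ∣ M)`. -/
def L (M : ℕ) : IntermediateField k K :=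
  adjoin k ((fun d => V d x) '' (M.divisors : Set ℕ))

/-- `deg M = [L M : k(x)]`. -/
def deg (M : ℕ) : ℕ := relfinrank k⟮x⟯ (L V x M)

/-- The prime-level data at `p`. -/
structure PrimeData (p : ℕ) : Prop where
  two_le : 2 ≤ p
  hΦ : ∃ F : k[X][X], F.Monic ∧ F.natDegree = p + 1 ∧
      eval₂ (aeval x : k[X] →ₐ[k] K).toRingHom (V p x) F = 0 ∧
      eval₂ (aeval (V p x) : k[X] →ₐ[k] K).toRingHom x F = 0
  hC : ∀ g : K[X], g ≠ 0 → g.natDegree < p → (g.map (V p : K →+* K)).eval x ≠ 0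
  hP : V p x ∉ k⟮x⟯

variable {V x}

theorem mem_L {M d : ℕ} (hM : M ≠ 0) (hd : d ∣ M) : V d x ∈ L V x M :=
  subset_adjoin _ _ ⟨d, by simpa using ⟨hd, hM⟩, rfl⟩

theorem adjoin_simple_le_L {M d : ℕ} (hM : M ≠ 0) (hd : d ∣ M) : k⟮V d x⟯ ≤ L V x M := by
  rw [adjoin_simple_le_iff]
  exact mem_L hM hd

/-- Lemma (C) in `minpoly` form, from the polynomial form. -/
theorem le_natDegree_minpoly_of_hC {p : ℕ}
    (hC : ∀ g : K[X], g ≠ 0 → g.natDegree < p → (g.map (V p : K →+* K)).eval x ≠ 0)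
    (A : IntermediateField k K) (hA : ∀ z ∈ A, z ∈ Set.range (V p)) (hint : IsIntegral A x) :
    p ≤ (minpoly A x).natDegree := by
  by_contra hlt
  rw [not_le] at hlt
  have hlift : (minpoly A x).map (algebraMap A K) ∈ Polynomial.lifts (V p : K →+* K) := by
    rw [Polynomial.lifts_iff_coeff_lifts]
    intro n
    rw [coeff_map]
    exact hA _ (SetLike.coe_mem _)
  obtain ⟨g', hg', hdeg'⟩ := Polynomial.exists_natDegree_eq_of_mem_lifts hlift
  have hinj : Function.Injective (algebraMap A K) := (algebraMap A K).injective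
  have hg0 : g' ≠ 0 := by
    rintro rfl
    rw [Polynomial.map_zero] at hg'
    exact minpoly.ne_zero hint ((Polynomial.map_eq_zero_iff hinj).1 hg'.symm)
  have hd : g'.natDegree < p := by
    rw [hdeg', natDegree_map_eq_of_injective hinj]
    exact hlt
  have := hC g' hg0 hd
  rw [hg', eval_map_algebraMap] at this
  exact this (minpoly.aeval A x)

variable (hV1 : V 1 = AlgHom.id k K)
  (hVmul : ∀ m n : ℕ, m ≠ 0 → n ≠ 0 → (V m).comp (V n) = V (m * n))

include hVmul in
theorem V_V {m n : ℕ} (hm : m ≠ 0) (hn : n ≠ 0) (z : K) : V m (V n z) = V (m * n) z := by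
  rw [← hVmul m n hm hn]; rfl

include hVmul in
/-- Integrality across one prime step (both directions), transported by `V e`. -/
theorem isIntegral_step {p : ℕ} (hp : PrimeData V x p) {e : ℕ} (he : e ≠ 0) :
    IsIntegral k⟮V e x⟯ (V (p * e) x) ∧ IsIntegral k⟮V (p * e) x⟯ (V e x) := by
  obtain ⟨F, hF, -, h1, h2⟩ := hp.hΦ
  have hp0 : p ≠ 0 := by have := hp.two_le; omega
  have hVV : V e (V p x) = V (p * e) x := by rw [V_V hVmul he hp0, mul_comm]
  have h1' := eval₂_aeval_algHom (V e) F x (V p x) h1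
  have h2' := eval₂_aeval_algHom (V e) F (V p x) x h2
  rw [hVV] at h1' h2'
  refine ⟨⟨polyAt F (V e x), polyAt_monic hF _, ?_⟩, ⟨polyAt F (V (p * e) x), polyAt_monic hF _, ?_⟩⟩
  · rw [← aeval_def, aeval_polyAt]; exact h1'
  · rw [← aeval_def, aeval_polyAt]; exact h2'

include hV1 hVmul in
/-- Every `V e x` (`e ∣ N`) is integral over `k(x)` and `x` is integral over `k(V e x)`. -/
theorem isIntegral_both {N : ℕ} (hN : N ≠ 0)
    (hprime : ∀ p : ℕ, p.Prime → p ∣ N → PrimeData V x p) :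
    ∀ e : ℕ, e ∣ N → IsIntegral k⟮x⟯ (V e x) ∧ IsIntegral k⟮V e x⟯ x := by
  intro e
  induction e using Nat.strong_induction_on with
  | _ e ih =>
    intro heN
    have he0 : e ≠ 0 := fun h => hN (by rw [h] at heN; exact Nat.eq_zero_of_zero_dvd heN)
    by_cases he1 : e = 1
    · subst he1
      rw [hV1]
      exact ⟨isIntegral_self x, isIntegral_self x⟩
    · have hpp : e.minFac.Prime := Nat.minFac_prime he1
      obtain ⟨e', he'⟩ := Nat.minFac_dvd e
      have he'0 : e' ≠ 0 := by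
        rintro rfl
        rw [mul_zero] at he'
        exact he0 he'
      have he'lt : e' < e := by
        conv_rhs => rw [he']
        exact lt_mul_of_one_lt_left (Nat.pos_of_ne_zero he'0) hpp.one_lt
      have he'N : e' ∣ N := (Dvd.intro_left _ he'.symm).trans heN
      have hpN : e.minFac ∣ N := (Nat.minFac_dvd e).trans heN
      obtain ⟨i1, i2⟩ := ih e' he'lt he'N
      obtain ⟨s1, s2⟩ := isIntegral_step hVmul (hprime _ hpp hpN) he'0
      rw [← he'] at s1 s2
      exact ⟨isIntegral_trans_simple s1 i1, isIntegral_trans_simple i2 s2⟩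

include hV1 hVmul in
/-- `L N` is finite over `k(V d x)` for every `d ∣ N`. -/
theorem relfinrank_L_ne_zero {N : ℕ} (hN : N ≠ 0)
    (hprime : ∀ p : ℕ, p.Prime → p ∣ N → PrimeData V x p) {d : ℕ} (hd : d ∣ N) :
    relfinrank k⟮V d x⟯ (L V x N) ≠ 0 := by
  have hle : k⟮V d x⟯ ≤ L V x N := adjoin_simple_le_L hN hd
  rw [relfinrank_eq_finrank_of_le hle]
  have hfin : (fun d => V d x) '' (N.divisors : Set ℕ) |>.Finite :=
    (Finset.finite_toSet _).image _
  have : Finite ((fun d => V d x) '' (N.divisors : Set ℕ)) := hfin.to_subtype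
  have hint : ∀ z ∈ (fun d => V d x) '' (N.divisors : Set ℕ), IsIntegral k⟮V d x⟯ z := by
    rintro _ ⟨e, he, rfl⟩
    have heN : e ∣ N := Nat.dvd_of_mem_divisors he
    exact isIntegral_trans_simple (isIntegral_both hV1 hVmul hN hprime e heN).1
      (isIntegral_both hV1 hVmul hN hprime d hd).2
  have : FiniteDimensional k⟮V d x⟯
      (adjoin k⟮V d x⟯ ((fun d => V d x) '' (N.divisors : Set ℕ))) :=
    finiteDimensional_adjoin hint
  have hext : extendScalars hle = adjoin k⟮V d x⟯ ((fun d => V d x) '' (N.divisors : Set ℕ)) :=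
    extendScalars_adjoin hle
  rw [hext]
  exact Module.finrank_pos.ne'

include hV1 in
/-- `deg 1 = 1`. -/
theorem deg_one : deg V x 1 = 1 := by
  have hL : L V x 1 = k⟮x⟯ := by
    rw [L, Nat.divisors_one, Finset.coe_singleton, Set.image_singleton, hV1]
    rfl
  rw [deg, hL, relfinrank_self]

include hV1 in
theorem adjoin_x_le_L {M : ℕ} (hM : M ≠ 0) : k⟮x⟯ ≤ L V x M := by
  have h := adjoin_simple_le_L (V := V) (x := x) hM (one_dvd M)
  rwa [hV1] at h

/-- The two towers through `E = k(x, V p x)`: `[L : k(x)] = [L : k(V p x)]` for any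
`L ⊇ E`. -/
theorem relfinrank_eq_of_primeData {p : ℕ} (hp : PrimeData V x p) (Lf : IntermediateField k K)
    (hE : k⟮x⟯ ⊔ k⟮V p x⟯ ≤ Lf) :
    relfinrank k⟮x⟯ Lf = (p + 1) * relfinrank (k⟮x⟯ ⊔ k⟮V p x⟯) Lf ∧
      relfinrank k⟮V p x⟯ Lf = (p + 1) * relfinrank (k⟮x⟯ ⊔ k⟮V p x⟯) Lf := by
  obtain ⟨F, hF, hdeg, h1, h2⟩ := hp.hΦ
  have hR1 := (relfinrank_left (V := V p) hp.two_le hF hdeg h1 h2 hp.hC hp.hP).2
  have hR2 := (relfinrank_right (V := V p) hp.two_le hF hdeg h1 h2 hp.hC hp.hP).2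
  constructor
  · rw [← hR1, relfinrank_mul_relfinrank le_sup_left hE]
  · rw [← hR2, relfinrank_mul_relfinrank le_sup_right hE]

include hV1 hVmul in
/-- `p + 1 ≤ deg p`. -/
theorem deg_prime {N : ℕ}
    (hprime : ∀ p : ℕ, p.Prime → p ∣ N → PrimeData V x p) {p : ℕ} (hp : p.Prime) (hpN : p ∣ N) :
    p + 1 ≤ deg V x p := by
  have hpd := hprime p hp hpN
  have hE : k⟮x⟯ ⊔ k⟮V p x⟯ ≤ L V x p :=
    sup_le (adjoin_x_le_L hV1 hp.ne_zero) (adjoin_simple_le_L hp.ne_zero dvd_rfl)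
  have h := (relfinrank_eq_of_primeData hpd _ hE).1
  have hfin : relfinrank k⟮x⟯ (L V x p) ≠ 0 := by
    have := relfinrank_L_ne_zero (V := V) (x := x) hV1 hVmul hp.ne_zero
      (fun q hq hqp => hprime q hq (hqp.trans hpN)) (one_dvd p)
    rwa [hV1] at this
  rw [deg, h]
  rw [h] at hfin
  have : relfinrank (k⟮x⟯ ⊔ k⟮V p x⟯) (L V x p) ≠ 0 := right_ne_zero_of_mul hfin
  nlinarith [Nat.pos_of_ne_zero this]

include hVmul in
/-- `(L M).map (V p) ≤ L (p * M)`. -/
theorem map_L_le {p M : ℕ} (hp : p ≠ 0) (hM : M ≠ 0) :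
    (L V x M).map (V p) ≤ L V x (p * M) := by
  rw [L, adjoin_map, adjoin_le_iff]
  rintro _ ⟨_, ⟨d, hd, rfl⟩, rfl⟩
  have hdM : d ∣ M := Nat.dvd_of_mem_divisors hd
  have hd0 : d ≠ 0 := fun h => hM (by rw [h] at hdM; exact Nat.eq_zero_of_zero_dvd hdM)
  rw [V_V hVmul hp hd0]
  exact mem_L (mul_ne_zero hp hM) (mul_dvd_mul_left p hdM)

include hV1 hVmul in
/-- The step: `deg (p * M) = a * deg M` with `a ≥ p`. -/
theorem deg_step {N : ℕ} (hN : N ≠ 0)
    (hprime : ∀ p : ℕ, p.Prime → p ∣ N → PrimeData V x p) {p M : ℕ} (hp : p.Prime)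
    (hpM : p * M ∣ N) : ∃ a : ℕ, p ≤ a ∧ deg V x (p * M) = a * deg V x M := by
  have hpM0 : p * M ≠ 0 := fun h => hN (by rw [h] at hpM; exact Nat.eq_zero_of_zero_dvd hpM)
  have hM0 : M ≠ 0 := right_ne_zero_of_mul hpM0
  have hpN : p ∣ N := (Dvd.intro _ rfl).trans hpM
  have hpd := hprime p hp hpN
  have hprime' : ∀ q : ℕ, q.Prime → q ∣ p * M → PrimeData V x q :=
    fun q hq hqd => hprime q hq (hqd.trans hpM)
  -- towers through E
  have hE : k⟮x⟯ ⊔ k⟮V p x⟯ ≤ L V x (p * M) :=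
    sup_le (adjoin_x_le_L hV1 hpM0) (adjoin_simple_le_L hpM0 (Dvd.intro _ rfl))
  obtain ⟨hT1, hT2⟩ := relfinrank_eq_of_primeData hpd _ hE
  have hdeg1 : deg V x (p * M) = relfinrank k⟮V p x⟯ (L V x (p * M)) := by
    rw [deg, hT1, hT2]
  -- the middle field
  have hFm : (L V x M).map (V p) ≤ L V x (p * M) := map_L_le hVmul hp.ne_zero hM0
  have hbase : k⟮V p x⟯ ≤ (L V x M).map (V p) := by
    rw [← adjoin_simple_map (V p) x]
    exact IntermediateField.map_mono _ (adjoin_x_le_L hV1 hM0)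
  have hT3 := relfinrank_mul_relfinrank hbase hFm
  have hmap : relfinrank k⟮V p x⟯ ((L V x M).map (V p)) = deg V x M := by
    rw [← adjoin_simple_map (V p) x, relfinrank_map_map, deg]
  refine ⟨relfinrank ((L V x M).map (V p)) (L V x (p * M)), ?_, ?_⟩
  · -- a ≥ p
    have hfin : relfinrank k⟮V p x⟯ (L V x (p * M)) ≠ 0 :=
      relfinrank_L_ne_zero hV1 hVmul hpM0 hprime' (Dvd.intro _ rfl)
    rw [← hT3] at hfin
    have ha0 : relfinrank ((L V x M).map (V p)) (L V x (p * M)) ≠ 0 := right_ne_zero_of_mul hfin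
    -- x is integral over the middle field
    have hintx : IsIntegral ((L V x M).map (V p)) x :=
      isIntegral_of_subset (fun z hz => hbase hz)
        (isIntegral_both hV1 hVmul hpM0 hprime' p (Dvd.intro _ rfl)).2
    have hG : (L V x M).map (V p) ⊔ k⟮x⟯ ≤ L V x (p * M) :=
      sup_le hFm (adjoin_x_le_L hV1 hpM0)
    have hT4 := relfinrank_mul_relfinrank (le_sup_left : (L V x M).map (V p) ≤ _) hG
    rw [relfinrank_sup_adjoin_simple _ _ hintx] at hT4
    have hpmin : p ≤ (minpoly ((L V x M).map (V p)) x).natDegree := by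
      refine le_natDegree_minpoly_of_hC hpd.hC _ ?_ hintx
      rintro z ⟨w, -, rfl⟩
      exact ⟨w, rfl⟩
    rw [← hT4] at ha0 ⊢
    have hpos : 0 < relfinrank ((L V x M).map (V p) ⊔ k⟮x⟯) (L V x (p * M)) :=
      Nat.pos_of_ne_zero (right_ne_zero_of_mul ha0)
    calc p ≤ (minpoly ((L V x M).map (V p)) x).natDegree := hpmin
      _ ≤ _ := Nat.le_mul_of_pos_right _ hpos
  · rw [hdeg1, ← hT3, hmap, mul_comm]

end System

end Fermat.Agent.IG.PR.LevelInd25
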